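/-
Frames (local generators) of invertible sheaves of modules, and gluing of morphisms.
-/
import Mathlib
import Fermat.Prelude.Def_AlgebraicGeometry_RelativePicardFunctor

set_option autoImplicit false

universe u

open CategoryTheory CategoryTheory.Limits AlgebraicGeometry TopologicalSpace Opposite

namespace Fermat.Agent.Picard

noncomputable section

variable {X : Scheme.{u}} {M N P : X.Modules}

/-- Restriction of sections of a module. -/
def mres (M : X.Modules) {U V : X.Opens} (h : V ≤ U) (m : Γ(M, U)) : Γ(M, V) :=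
  M.presheaf.map (homOfLE h).op m

/-- Restriction of functions. -/
def ores (X : Scheme.{u}) {U V : X.Opens} (h : V ≤ U) : Γ(X, U) →+* Γ(X, V) :=
  (X.presheaf.map (homOfLE h).op).hom

@[simp] lemma mres_self {U : X.Opens} (h : U ≤ U) (m : Γ(M, U)) : mres M h m = m := by
  simp only [mres, homOfLE_refl, op_id, CategoryTheory.Functor.map_id]
  rfl

@[simp] lemma mres_mres {U V W : X.Opens} (h : V ≤ U) (h' : W ≤ V) (m : Γ(M, U)) :
    mres M h' (mres M h m) = mres M (h'.trans h) m := by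
  simp only [mres, ← ConcreteCategory.comp_apply, ← Functor.map_comp, ← op_comp, homOfLE_comp]

@[simp] lemma ores_ores {U V W : X.Opens} (h : V ≤ U) (h' : W ≤ V) (r : Γ(X, U)) :
    ores X h' (ores X h r) = ores X (h'.trans h) r := by
  simp only [ores]
  rw [← RingHom.comp_apply, ← CommRingCat.hom_comp, ← Functor.map_comp, ← op_comp, homOfLE_comp]

@[simp] lemma ores_self {U : X.Opens} (h : U ≤ U) (r : Γ(X, U)) : ores X h r = r := by
  simp only [ores, homOfLE_refl, op_id, CategoryTheory.Functor.map_id]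
  rfl

lemma mres_smul {U V : X.Opens} (h : V ≤ U) (r : Γ(X, U)) (m : Γ(M, U)) :
    mres M h (r • m) = ores X h r • mres M h m := M.map_smul (homOfLE h) r m

@[simp] lemma mres_add {U V : X.Opens} (h : V ≤ U) (m m' : Γ(M, U)) :
    mres M h (m + m') = mres M h m + mres M h m' := map_add _ _ _

@[simp] lemma mres_zero {U V : X.Opens} (h : V ≤ U) :
    mres M h (0 : Γ(M, U)) = 0 := map_zero _

lemma app_mres (φ : M ⟶ N) {U V : X.Opens} (h : V ≤ U) (m : Γ(M, U)) :
    φ.app V (mres M h m) = mres N h (φ.app U m) :=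
  CategoryTheory.congr_fun ((Scheme.Modules.Hom.mapPresheaf φ).naturality (homOfLE h).op) m

/-- Separatedness of a module sheaf. -/
lemma mres_ext {ι : Type*} {U : X.Opens} (V : ι → X.Opens) (hV : ∀ i, V i ≤ U)
    (hc : U ≤ ⨆ i, V i) {m m' : Γ(M, U)}
    (h : ∀ i, mres M (hV i) m = mres M (hV i) m') : m = m' :=
  TopCat.Sheaf.eq_of_locally_eq' ⟨M.presheaf, M.isSheaf⟩ V U (fun i ↦ homOfLE (hV i)) hc m m' h

/-- Separatedness, pointwise form. -/
lemma mres_ext_point {U : X.Opens} {m m' : Γ(M, U)}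
    (h : ∀ x ∈ U, ∃ (V : X.Opens) (hV : V ≤ U), x ∈ V ∧ mres M hV m = mres M hV m') : m = m' := by
  choose V hV hx heq using h
  refine mres_ext (fun p : U ↦ V p.1 p.2) (fun p ↦ hV p.1 p.2) (fun x hxU ↦ ?_) (fun p ↦ heq _ _)
  exact Opens.mem_iSup.2 ⟨⟨x, hxU⟩, hx x hxU⟩

/-- Gluing of sections. -/
lemma mres_glue {ι : Type*} {U : X.Opens} (V : ι → X.Opens) (hV : ∀ i, V i ≤ U)
    (hc : U ≤ ⨆ i, V i) (s : ∀ i, Γ(M, V i))
    (h : ∀ i j, mres M (inf_le_left : V i ⊓ V j ≤ V i) (s i) =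
      mres M (inf_le_right : V i ⊓ V j ≤ V j) (s j)) :
    ∃! m : Γ(M, U), ∀ i, mres M (hV i) m = s i :=
  TopCat.Sheaf.existsUnique_gluing' ⟨M.presheaf, M.isSheaf⟩ V U (fun i ↦ homOfLE (hV i)) hc s h

/-- `s` is a frame of `M` on `U`. -/
def IsFrame (M : X.Modules) {U : X.Opens} (s : Γ(M, U)) : Prop :=
  ∀ (V : X.Opens) (h : V ≤ U), Function.Bijective fun r : Γ(X, V) ↦ r • mres M h s

namespace IsFrame

variable {U : X.Opens} {s : Γ(M, U)} (hs : IsFrame M s)
include hs

lemma mono {V : X.Opens} (h : V ≤ U) : IsFrame M (mres M h s) := fun W hW ↦ by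
  simpa using hs W (hW.trans h)

/-- The coefficient of a section with respect to a frame. -/
def coeff {V : X.Opens} (h : V ≤ U) (m : Γ(M, V)) : Γ(X, V) := ((hs V h).2 m).choose

lemma coeff_smul {V : X.Opens} (h : V ≤ U) (m : Γ(M, V)) :
    hs.coeff h m • mres M h s = m := ((hs V h).2 m).choose_spec

lemma coeff_eq {V : X.Opens} (h : V ≤ U) {m : Γ(M, V)} {r : Γ(X, V)} (e : r • mres M h s = m) :
    hs.coeff h m = r :=
  (hs V h).1 (show hs.coeff h m • _ = r • _ from (hs.coeff_smul h m).trans e.symm)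

lemma coeff_add {V : X.Opens} (h : V ≤ U) (m m' : Γ(M, V)) :
    hs.coeff h (m + m') = hs.coeff h m + hs.coeff h m' :=
  hs.coeff_eq h (by rw [add_smul, hs.coeff_smul, hs.coeff_smul])

lemma coeff_smul_right {V : X.Opens} (h : V ≤ U) (r : Γ(X, V)) (m : Γ(M, V)) :
    hs.coeff h (r • m) = r * hs.coeff h m :=
  hs.coeff_eq h (by rw [mul_smul, hs.coeff_smul])

lemma coeff_mres {V W : X.Opens} (h : V ≤ U) (h' : W ≤ V) (m : Γ(M, V)) :
    hs.coeff (h'.trans h) (mres M h' m) = ores X h' (hs.coeff h m) :=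
  hs.coeff_eq _ (by
    conv_rhs => rw [← hs.coeff_smul h m]
    rw [mres_smul, mres_mres])

lemma coeff_self {V : X.Opens} (h : V ≤ U) : hs.coeff h (mres M h s) = 1 :=
  hs.coeff_eq h (one_smul _ _)

/-- Two frames differ by a unit. -/
lemma isUnit_coeff {t : Γ(M, U)} (ht : IsFrame M t) : IsUnit (hs.coeff le_rfl t) := by
  refine IsUnit.of_mul_eq_one (ht.coeff le_rfl s) (hs.coeff_eq le_rfl ?_ |>.symm.trans
    (hs.coeff_self le_rfl))
  have h1 := hs.coeff_smul le_rfl t
  have h2 := ht.coeff_smul le_rfl s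
  simp only [mres_self] at h1 h2 ⊢
  rw [mul_comm, mul_smul, h1, h2]

lemma unit_smul (w : Γ(X, U)ˣ) : IsFrame M ((w : Γ(X, U)) • s) := fun V h ↦ by
  have : (fun r : Γ(X, V) ↦ r • mres M h ((w : Γ(X, U)) • s)) =
      (fun r : Γ(X, V) ↦ r • mres M h s) ∘ (fun r ↦ r * ores X h (w : Γ(X, U))) := by
    funext r; simp [mres_smul, mul_smul]
  rw [this]
  exact (hs V h).comp (Units.mulRight (Units.map (ores X h).toMonoidHom w)).bijective

end IsFrame

/-- A morphism defined on sections over the opens contained in `U`. -/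
structure HomOn (M N : X.Modules) (U : X.Opens) where
  app : ∀ V : X.Opens, V ≤ U → Γ(M, V) → Γ(N, V)
  map_add : ∀ V h m m', app V h (m + m') = app V h m + app V h m'
  map_smul : ∀ V h (r : Γ(X, V)) m, app V h (r • m) = r • app V h m
  map_res : ∀ V h W (h' : W ≤ V) m, app W (h'.trans h) (mres M h' m) = mres N h' (app V h m)

/-- A morphism is a `HomOn` on every open. -/
def HomOn.ofHom (φ : M ⟶ N) (U : X.Opens) : HomOn M N U where
  app V _ := φ.app V
  map_add V _ m m' := _root_.map_add (φ.app V).hom m m'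
  map_smul _ _ r m := φ.app_smul r m
  map_res _ _ _ h' m := app_mres φ h' m

/-- The morphism over `U` sending the frame `s` to `t`. -/
def IsFrame.homOn {U : X.Opens} {s : Γ(M, U)} (hs : IsFrame M s) (t : Γ(N, U)) :
    HomOn M N U where
  app V h m := hs.coeff h m • mres N h t
  map_add V h m m' := by rw [hs.coeff_add, add_smul]
  map_smul V h r m := by rw [hs.coeff_smul_right, mul_smul]
  map_res V h W h' m := by rw [hs.coeff_mres h h', mres_smul, mres_mres]

lemma IsFrame.homOn_self {U : X.Opens} {s : Γ(M, U)} (hs : IsFrame M s) (t : Γ(N, U)) {V : X.Opens}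
    (h : V ≤ U) : (hs.homOn t).app V h (mres M h s) = mres N h t := by
  simp [IsFrame.homOn, hs.coeff_self]

lemma IsFrame.homOn_ext {U : X.Opens} {s : Γ(M, U)} (hs : IsFrame M s) (F G : HomOn M N U)
    (e : F.app U le_rfl s = G.app U le_rfl s) {V : X.Opens} (h : V ≤ U) (m : Γ(M, V)) :
    F.app V h m = G.app V h m := by
  conv_lhs => rw [← hs.coeff_smul h m]
  conv_rhs => rw [← hs.coeff_smul h m]
  rw [F.map_smul, G.map_smul, F.map_res U le_rfl V h s, G.map_res U le_rfl V h s, e]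

section Glue

variable {ι : Type*} (U : ι → X.Opens) (hU : ⨆ i, U i = ⊤) (F : ∀ i, HomOn M N (U i))
  (hF : ∀ i j V (hi : V ≤ U i) (hj : V ≤ U j) (m : Γ(M, V)),
    (F i).app V hi m = (F j).app V hj m)

include hU hF in
lemma HomOn.existsUnique_app (V : X.Opens) (m : Γ(M, V)) :
    ∃! n : Γ(N, V), ∀ i, mres N (inf_le_left : V ⊓ U i ≤ V) n =
      (F i).app (V ⊓ U i) inf_le_right (mres M inf_le_left m) := by
  refine mres_glue (M := N) (fun i ↦ V ⊓ U i) (fun i ↦ inf_le_left) ?_ _ ?_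
  · rw [← inf_iSup_eq, hU, inf_top_eq]
  · intro i j
    rw [← (F i).map_res _ inf_le_right _ inf_le_left, ← (F j).map_res _ inf_le_right _ inf_le_right,
      mres_mres, mres_mres]
    exact hF i j _ _ _ _

include hU hF in
/-- Gluing of morphisms. -/
lemma HomOn.existsUnique_glue :
    ∃! φ : M ⟶ N, ∀ i V (h : V ≤ U i) (m : Γ(M, V)), φ.app V m = (F i).app V h m := by
  choose g hg hgu using HomOn.existsUnique_app U hU F hF
  have hadd : ∀ V (a b : Γ(M, V)), g V (a + b) = g V a + g V b := fun V a b ↦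
    (hgu V (a + b) _ fun i ↦ by rw [mres_add, hg, hg, ← (F i).map_add, ← mres_add]).symm
  have hsmul : ∀ V (r : Γ(X, V)) (m : Γ(M, V)), g V (r • m) = r • g V m := fun V r m ↦
    (hgu V (r • m) _ fun i ↦ by rw [mres_smul, hg, ← (F i).map_smul, ← mres_smul]).symm
  have hres : ∀ V W (h : W ≤ V) (m : Γ(M, V)), g W (mres M h m) = mres N h (g V m) :=
    fun V W h m ↦ (hgu W (mres M h m) _ fun i ↦ by
      have e := congrArg (mres N (inf_le_inf h le_rfl : W ⊓ U i ≤ V ⊓ U i)) (hg V m i)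
      rw [← (F i).map_res _ inf_le_right, mres_mres, mres_mres] at e
      rw [mres_mres, mres_mres]
      exact e).symm
  let φ : M.val ⟶ N.val := PresheafOfModules.homMk
    { app := fun V ↦ AddCommGrpCat.ofHom (AddMonoidHom.mk' (g V.unop) (hadd V.unop))
      naturality := fun V W f ↦ by
        ext m
        exact hres V.unop W.unop f.unop.le m }
    (fun V r m ↦ hsmul V.unop r m)
  have key : ∀ i V (h : V ≤ U i) (m : Γ(M, V)), g V m = (F i).app V h m := fun i V h m ↦ by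
    refine (hgu V m ((F i).app V h m) fun j ↦ ?_).symm
    rw [← (F i).map_res V h _ inf_le_left]
    exact hF i j _ _ _ _
  refine ⟨⟨φ⟩, key, fun ψ hψ ↦ ?_⟩
  refine Scheme.Modules.hom_ext _ _ fun V ↦ ?_
  ext m
  exact hgu V m (ψ.app V m) fun i ↦ by rw [← app_mres]; exact hψ i _ _ _

end Glue

lemma hom_ext_frames {ι : Type*} (U : ι → X.Opens) (hU : ⨆ i, U i = ⊤) {s : ∀ i, Γ(M, U i)}
    (hs : ∀ i, IsFrame M (s i)) {φ ψ : M ⟶ N} (h : ∀ i, φ.app (U i) (s i) = ψ.app (U i) (s i)) :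
    φ = ψ := by
  refine Scheme.Modules.hom_ext _ _ fun V ↦ ?_
  ext m
  refine mres_ext (M := N) (fun i ↦ V ⊓ U i) (fun i ↦ inf_le_left)
    (by rw [← inf_iSup_eq, hU, inf_top_eq]) fun i ↦ ?_
  rw [← app_mres, ← app_mres]
  exact (hs i).homOn_ext (HomOn.ofHom φ _) (HomOn.ofHom ψ _) (h i) inf_le_right _

/-- A morphism mapping frames to frames is an isomorphism. -/
lemma isIso_of_frames {ι : Type*} (U : ι → X.Opens) (hU : ⨆ i, U i = ⊤) (φ : M ⟶ N)
    {s : ∀ i, Γ(M, U i)} (hs : ∀ i, IsFrame M (s i))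
    (ht : ∀ i, IsFrame N (φ.app (U i) (s i))) : IsIso φ := by
  have hcompat : ∀ i V (h : V ≤ U i) (m : Γ(M, V)),
      ((ht i).homOn (s i)).app V h (φ.app V m) = m := fun i V h m ↦ by
    conv_lhs => rw [← (hs i).coeff_smul h m, φ.app_smul, app_mres]
    rw [HomOn.map_smul, IsFrame.homOn_self, (hs i).coeff_smul]
  have hinj : ∀ i V (_ : V ≤ U i) (m m' : Γ(M, V)), φ.app V m = φ.app V m' → m = m' :=
    fun i V h m m' e ↦ by rw [← hcompat i V h m, ← hcompat i V h m', e]
  have hinv : ∀ i V (h : V ≤ U i) (n : Γ(N, V)),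
      φ.app V (((ht i).homOn (s i)).app V h n) = n := fun i V h n ↦ by
    conv_lhs => rw [IsFrame.homOn, φ.app_smul, app_mres]
    exact (ht i).coeff_smul h n
  obtain ⟨ψ, hψ, -⟩ := HomOn.existsUnique_glue U hU (fun i ↦ (ht i).homOn (s i))
    (fun i j V hi hj n ↦ hinj i V hi _ _ (by rw [hinv, hinv]))
  refine ⟨ψ, hom_ext_frames U hU hs fun i ↦ ?_, hom_ext_frames U hU ht fun i ↦ ?_⟩
  · rw [Scheme.Modules.Hom.comp_app, ConcreteCategory.comp_apply, hψ i _ le_rfl, hcompat]
    rfl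
  · rw [Scheme.Modules.Hom.comp_app, ConcreteCategory.comp_apply, hψ i _ le_rfl, hinv]
    rfl

lemma IsFrame.map_iso {U : X.Opens} {s : Γ(M, U)} (hs : IsFrame M s) (φ : M ⟶ N) [IsIso φ] :
    IsFrame N (φ.app U s) := fun V h ↦ by
  have : (fun r : Γ(X, V) ↦ r • mres N h (φ.app U s)) =
      φ.app V ∘ fun r : Γ(X, V) ↦ r • mres M h s := by
    funext r; simp [Function.comp, φ.app_smul, app_mres]
  rw [this]
  exact (ConcreteCategory.bijective_of_isIso (φ.app V)).comp (hs V h)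

/-- The structure sheaf as a module. -/
abbrev OO (X : Scheme.{u}) : X.Modules := SheafOfModules.unit X.ringCatSheaf

/-- A function as a section of the structure sheaf. -/
def ofFun {U : X.Opens} (r : Γ(X, U)) : Γ(OO X, U) := r

/-- A section of the structure sheaf as a function. -/
def toFun {U : X.Opens} (r : Γ(OO X, U)) : Γ(X, U) := r

@[simp] lemma toFun_ofFun {U : X.Opens} (r : Γ(X, U)) : toFun (ofFun r) = r := rfl
@[simp] lemma ofFun_toFun {U : X.Opens} (r : Γ(OO X, U)) : ofFun (toFun r) = r := rfl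

@[simp] lemma toFun_smul {U : X.Opens} (r : Γ(X, U)) (m : Γ(OO X, U)) :
    toFun (r • m) = r * toFun m := rfl

@[simp] lemma toFun_mres {U V : X.Opens} (h : V ≤ U) (m : Γ(OO X, U)) :
    toFun (mres (OO X) h m) = ores X h (toFun m) := rfl

/-- `1` is a frame of the structure sheaf. -/
lemma isFrame_one (U : X.Opens) : IsFrame (OO X) (ofFun (1 : Γ(X, U))) := fun V h ↦
  ⟨fun r r' e ↦ by simpa using congrArg toFun e,
    fun m ↦ ⟨toFun m, (Function.LeftInverse.injective (g := ofFun) ofFun_toFun) (by simp)⟩⟩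

/-- An invertible sheaf has frames around every point. -/
lemma exists_isFrame (hM : Scheme.Modules.IsInvertible M) (x : X) :
    ∃ (U : X.Opens) (s : Γ(M, U)), x ∈ U ∧ IsFrame M s := by
  obtain ⟨U, hx, ⟨e⟩⟩ := hM.exists_trivialization x
  let e' : (Scheme.Modules.restrictFunctor U.ι).obj M ≅
      OO U.toScheme :=
    (Scheme.Modules.restrictFunctorIsoPullback U.ι).app M ≪≫ e
  obtain ⟨t, ht⟩ : ∃ t : Γ((Scheme.Modules.restrictFunctor U.ι).obj M, ⊤),
      IsFrame ((Scheme.Modules.restrictFunctor U.ι).obj M) t :=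
    ⟨_, @IsFrame.map_iso _ _ _ _ _ (isFrame_one (X := U.toScheme) ⊤) e'.inv ⟨e'.hom, e'.inv_hom_id, e'.hom_inv_id⟩⟩
  have heq : U.ι ''ᵁ ⊤ = U := by simp
  refine ⟨U.ι ''ᵁ ⊤, (M.restrictAppIso U.ι ⊤).hom t, heq.symm ▸ hx, fun V h ↦ ?_⟩
  obtain ⟨V', rfl⟩ : ∃ V', U.ι ''ᵁ V' = V :=
    ⟨U.ι ⁻¹ᵁ V, by rw [U.ι.image_preimage_eq_opensRange_inf]; simpa using h.trans heq.le⟩
  have hb := ht V' le_top
  have key : ∀ r : Γ(U.toScheme, V'),
      (M.restrictAppIso U.ι V').hom (r • mres _ (le_top : V' ≤ ⊤) t) =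
        (U.ι.appIso V').inv r • mres M h ((M.restrictAppIso U.ι ⊤).hom t) := fun r ↦ rfl
  have : (fun r : Γ(X, U.ι ''ᵁ V') ↦ r • mres M h ((M.restrictAppIso U.ι ⊤).hom t)) =
      (M.restrictAppIso U.ι V').hom ∘ (fun r ↦ r • mres _ (le_top : V' ≤ ⊤) t) ∘
        (U.ι.appIso V').hom := by
    funext r
    simp only [Function.comp, key, Iso.hom_inv_id_apply]
  rw [this]
  exact (ConcreteCategory.bijective_of_isIso _).comp
    (hb.comp (ConcreteCategory.bijective_of_isIso _))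

end

end Fermat.Agent.Picard
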