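/-
Line bundles from unit cocycles; frames give trivialisations.
-/
import Fermat.Agent.Picard.Modules.Frame

set_option autoImplicit false

universe u

open CategoryTheory CategoryTheory.Limits AlgebraicGeometry TopologicalSpace Opposite

namespace Fermat.Agent.Picard

noncomputable section

variable {X : Scheme.{u}}

/-- A unit cocycle on an open cover. -/
structure UnitCocycle (X : Scheme.{u}) where
  ι : Type u
  U : ι → X.Opens
  cover : ⨆ i, U i = ⊤
  g : ∀ i j, Γ(X, U i ⊓ U j)ˣ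
  cocycle : ∀ i j l, ores X (le_inf (inf_le_left.trans inf_le_left) (inf_le_left.trans inf_le_right))
      (g i j : Γ(X, U i ⊓ U j)) *
    ores X (le_inf (inf_le_left.trans inf_le_right) inf_le_right) (g j l : Γ(X, U j ⊓ U l)) =
    ores X (le_inf (inf_le_left.trans inf_le_left) inf_le_right : U i ⊓ U j ⊓ U l ≤ U i ⊓ U l)
      (g i l : Γ(X, U i ⊓ U l))

namespace UnitCocycle

variable (D : UnitCocycle X)

/-- transition function restricted to an open -/
def gOn {i j : D.ι} {V : X.Opens} (hi : V ≤ D.U i) (hj : V ≤ D.U j) : Γ(X, V) :=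
  ores X (le_inf hi hj) (D.g i j : Γ(X, D.U i ⊓ D.U j))

@[simp] lemma ores_gOn {i j : D.ι} {V W : X.Opens} (hi : V ≤ D.U i) (hj : V ≤ D.U j) (h : W ≤ V) :
    ores X h (D.gOn hi hj) = D.gOn (h.trans hi) (h.trans hj) := ores_ores _ _ _

lemma isUnit_gOn {i j : D.ι} {V : X.Opens} (hi : V ≤ D.U i) (hj : V ≤ D.U j) :
    IsUnit (D.gOn hi hj) := (D.g i j).isUnit.map _

lemma gOn_mul {i j l : D.ι} {V : X.Opens} (hi : V ≤ D.U i) (hj : V ≤ D.U j) (hl : V ≤ D.U l) :
    D.gOn hi hj * D.gOn hj hl = D.gOn hi hl := by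
  simpa [gOn] using congrArg (ores X (le_inf (le_inf hi hj) hl)) (D.cocycle i j l)

lemma gOn_self {i : D.ι} {V : X.Opens} (hi : V ≤ D.U i) : D.gOn hi hi = 1 :=
  (D.isUnit_gOn hi hi).mul_left_cancel (by rw [D.gOn_mul, mul_one])

/-- ambient sections -/
def Amb (V : X.Opens) : Type u := ∀ i : D.ι, Γ(X, V ⊓ D.U i)

instance (V : X.Opens) : AddCommGroup (D.Amb V) := inferInstanceAs (AddCommGroup (∀ i, _))

instance (V : X.Opens) : SMul Γ(X, V) (D.Amb V) := ⟨fun r f i ↦ ores X inf_le_left r * f i⟩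

lemma amb_smul_apply {V : X.Opens} (r : Γ(X, V)) (f : D.Amb V) (i : D.ι) :
    (r • f) i = ores X inf_le_left r * f i := rfl

instance (V : X.Opens) : Module Γ(X, V) (D.Amb V) where
  one_smul f := funext fun i ↦ by simp [amb_smul_apply]
  mul_smul r r' f := funext fun i ↦ by simp [amb_smul_apply, mul_assoc]
  smul_zero r := funext fun i ↦ by
    change ores X inf_le_left r * (0 : Γ(X, V ⊓ D.U i)) = (0 : Γ(X, V ⊓ D.U i))
    simp
  smul_add r f f' := funext fun i ↦ by
    change ores X inf_le_left r * (f i + f' i) = ores X inf_le_left r * f i + ores X inf_le_left r * f' i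
    rw [mul_add]
  add_smul r r' f := funext fun i ↦ by
    change ores X inf_le_left (r + r') * f i = ores X inf_le_left r * f i + ores X inf_le_left r' * f i
    rw [map_add, add_mul]
  zero_smul f := funext fun i ↦ by
    change ores X inf_le_left (0 : Γ(X, V)) * f i = (0 : Γ(X, V ⊓ D.U i))
    simp

/-- The compatible families. -/
def Sec (V : X.Opens) : Submodule Γ(X, V) (D.Amb V) where
  carrier := {f | ∀ i j (W : X.Opens) (hi : W ≤ V ⊓ D.U i) (hj : W ≤ V ⊓ D.U j),
    ores X hi (f i) = D.gOn (hi.trans inf_le_right) (hj.trans inf_le_right) * ores X hj (f j)}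
  add_mem' {f f'} hf hf' i j W hi hj := by
    change ores X hi (f i + f' i) = _ * ores X hj (f j + f' j)
    rw [map_add, map_add, mul_add, hf i j W hi hj, hf' i j W hi hj]
  zero_mem' i j W hi hj := by
    change ores X hi (0 : Γ(X, V ⊓ D.U i)) = _ * ores X hj (0 : Γ(X, V ⊓ D.U j))
    simp
  smul_mem' r f hf i j W hi hj := by
    rw [amb_smul_apply, amb_smul_apply, map_mul, map_mul, hf i j W hi hj, ores_ores, ores_ores]
    ring

/-- restriction of families -/
def resSec {V W : X.Opens} (h : W ≤ V) : D.Sec V →+ D.Sec W where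
  toFun f := ⟨fun i ↦ ores X (inf_le_inf h le_rfl) (f.1 i), fun i j Z hi hj ↦ by
    simpa using f.2 i j Z (hi.trans (inf_le_inf h le_rfl)) (hj.trans (inf_le_inf h le_rfl))⟩
  map_zero' := Subtype.ext (funext fun i ↦ map_zero _)
  map_add' f f' := Subtype.ext (funext fun i ↦ map_add _ _ _)

lemma resSec_self {V : X.Opens} (h : V ≤ V) (f : D.Sec V) : D.resSec h f = f :=
  Subtype.ext (funext fun i ↦ ores_self _ _)

lemma resSec_resSec {V W Z : X.Opens} (h : W ≤ V) (h' : Z ≤ W) (f : D.Sec V) :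
    D.resSec h' (D.resSec h f) = D.resSec (h'.trans h) f :=
  Subtype.ext (funext fun i ↦ ores_ores _ _ _)

lemma resSec_smul {V W : X.Opens} (h : W ≤ V) (r : Γ(X, V)) (f : D.Sec V) :
    D.resSec h (r • f) = ores X h r • D.resSec h f :=
  Subtype.ext (funext fun i ↦ by
    change ores X _ (ores X inf_le_left r * f.1 i) = ores X inf_le_left (ores X h r) * ores X _ (f.1 i)
    rw [map_mul, ores_ores, ores_ores])

/-- the abelian presheaf of compatible families -/
def abPresheaf : TopCat.Presheaf Ab.{u} X where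
  obj V := AddCommGrpCat.of (D.Sec V.unop)
  map f := AddCommGrpCat.ofHom (D.resSec f.unop.le)
  map_id V := by
    ext (f : D.Sec V.unop)
    exact congrArg Subtype.val (D.resSec_self le_rfl f)
  map_comp {V W Z} f g := by
    ext (s : D.Sec V.unop)
    exact congrArg Subtype.val (D.resSec_resSec f.unop.le g.unop.le s).symm

lemma abPresheaf_isSheaf : D.abPresheaf.IsSheaf := by
  rw [TopCat.Presheaf.isSheaf_iff_isSheafUniqueGluing]
  intro κ V sf hsf
  have hglue : ∀ i : D.ι, ∃! r : Γ(X, iSup V ⊓ D.U i),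
      ∀ a, ores X (inf_le_inf (le_iSup V a) le_rfl) r = ((sf a : D.Sec (V a)).1 i) := fun i ↦ by
    refine X.sheaf.existsUnique_gluing' (fun a ↦ V a ⊓ D.U i) (iSup V ⊓ D.U i)
      (fun a ↦ homOfLE (inf_le_inf (le_iSup V a) le_rfl)) (by rw [iSup_inf_eq]) _ fun a b ↦ ?_
    have e : ores X (inf_le_inf inf_le_left le_rfl : V a ⊓ V b ⊓ D.U i ≤ V a ⊓ D.U i)
        ((sf a : D.Sec (V a)).1 i) = ores X (inf_le_inf inf_le_right le_rfl)
        ((sf b : D.Sec (V b)).1 i) :=
      congrArg (fun t : D.Sec (V a ⊓ V b) ↦ t.1 i) (hsf a b)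
    have h : (V a ⊓ D.U i) ⊓ (V b ⊓ D.U i) ≤ V a ⊓ V b ⊓ D.U i :=
      le_inf (le_inf (inf_le_left.trans inf_le_left) (inf_le_right.trans inf_le_left))
        (inf_le_left.trans inf_le_right)
    have e' := congrArg (ores X h) e
    rw [ores_ores, ores_ores] at e'
    exact e'
  choose r hr hru using hglue
  refine ⟨(⟨r, fun i j W hi hj ↦ ?_⟩ : D.Sec (iSup V)), fun a ↦ Subtype.ext (funext fun i ↦ hr i a),
    fun f hf ↦ Subtype.ext (funext fun i ↦ hru i _ fun a ↦
      congrArg (fun t : D.Sec (V a) ↦ t.1 i) (hf a))⟩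
  refine X.sheaf.eq_of_locally_eq' (fun a ↦ V a ⊓ W) W (fun a ↦ homOfLE inf_le_right) ?_ _ _
    fun a ↦ ?_
  · rw [← iSup_inf_eq, le_inf_iff]
    exact ⟨hi.trans inf_le_left, le_rfl⟩
  · change ores X inf_le_right (ores X hi (r i)) = ores X inf_le_right (_ * ores X hj (r j))
    have hai : V a ⊓ W ≤ V a ⊓ D.U i := inf_le_inf le_rfl (hi.trans inf_le_right)
    have haj : V a ⊓ W ≤ V a ⊓ D.U j := inf_le_inf le_rfl (hj.trans inf_le_right)
    have e := (sf a : D.Sec (V a)).2 i j (V a ⊓ W) hai haj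
    rw [← hr i a, ← hr j a] at e
    rw [map_mul]
    simpa using e

instance (V : X.Opensᵒᵖ) : Module (X.ringCatSheaf.obj.obj V) (D.Sec V.unop) :=
  inferInstanceAs (Module Γ(X, V.unop) (D.Sec V.unop))

/-- the line bundle of a cocycle -/
def toModules : X.Modules where
  val :=
    { obj := fun V ↦ ModuleCat.of (X.ringCatSheaf.obj.obj V) (D.Sec V.unop)
      map := fun {V W} f ↦ ModuleCat.ofHom
        (Y := (ModuleCat.restrictScalars (X.ringCatSheaf.obj.map f).hom).obj
          (ModuleCat.of (X.ringCatSheaf.obj.obj W) (D.Sec W.unop)))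
        { toFun := D.resSec f.unop.le
          map_add' := map_add _
          map_smul' := fun r s ↦ D.resSec_smul f.unop.le r s }
      map_id := fun V ↦ by
        ext (f : D.Sec V.unop)
        exact D.resSec_self le_rfl f
      map_comp := fun {V W Z} f g ↦ by
        ext (s : D.Sec V.unop)
        exact (D.resSec_resSec f.unop.le g.unop.le s).symm }
  isSheaf := D.abPresheaf_isSheaf

/-- the tautological frames -/
def frame (l : D.ι) : Γ(D.toModules, D.U l) :=
  (⟨fun i ↦ D.gOn (inf_le_right : D.U l ⊓ D.U i ≤ D.U i) (inf_le_left : D.U l ⊓ D.U i ≤ D.U l),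
    fun i j W hi hj ↦ by
      rw [ores_gOn, ores_gOn]
      exact (D.gOn_mul _ _ _).symm⟩ : D.Sec (D.U l))

lemma isFrame_frame (l : D.ι) : IsFrame D.toModules (D.frame l) := fun V h ↦ by
  have key : ∀ (r : Γ(X, V)) (i : D.ι),
      ((r • mres D.toModules h (D.frame l) : Γ(D.toModules, V)) : D.Sec V).1 i =
        ores X inf_le_left r *
          ores X (inf_le_inf h le_rfl) (D.gOn (inf_le_right : D.U l ⊓ D.U i ≤ D.U i) inf_le_left) :=
    fun r i ↦ rfl
  constructor
  · intro r r' e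
    have e' := congrArg (fun t : D.Sec V ↦ ores X (le_inf le_rfl h : V ≤ V ⊓ D.U l) (t.1 l)) e
    simp only [key, map_mul, ores_ores, ores_self, gOn_self] at e'
    simpa using e'
  · intro f
    refine ⟨ores X (le_inf le_rfl h : V ≤ V ⊓ D.U l) ((f : D.Sec V).1 l), Subtype.ext (funext fun i ↦ ?_)⟩
    refine (key _ i).trans ?_
    have e := (f : D.Sec V).2 i l (V ⊓ D.U i) le_rfl (le_inf inf_le_left (inf_le_left.trans h))
    rw [ores_self] at e
    rw [e, ores_ores, ores_gOn, mul_comm]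

lemma frame_rel (i j : D.ι) :
    mres D.toModules (inf_le_right : D.U i ⊓ D.U j ≤ D.U j) (D.frame j) =
      (D.g i j : Γ(X, D.U i ⊓ D.U j)) • mres D.toModules inf_le_left (D.frame i) := by
  refine Subtype.ext (funext fun l ↦ ?_)
  change ores X _ (D.gOn (inf_le_right : D.U j ⊓ D.U l ≤ D.U l) inf_le_left) =
    ores X inf_le_left (D.g i j : Γ(X, D.U i ⊓ D.U j)) *
      ores X _ (D.gOn (inf_le_right : D.U i ⊓ D.U l ≤ D.U l) inf_le_left)
  rw [ores_gOn, ores_gOn, show (D.g i j : Γ(X, D.U i ⊓ D.U j)) = D.gOn inf_le_left inf_le_right from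
    (ores_self _ _).symm, ores_gOn, mul_comm]
  exact (D.gOn_mul _ _ _).symm

end UnitCocycle

/-- Frames give a trivialising cover. -/
lemma isInvertible_of_frames {M : X.Modules} {ι : Type*} (U : ι → X.Opens) (hU : ⨆ i, U i = ⊤)
    {s : ∀ i, Γ(M, U i)} (hs : ∀ i, IsFrame M (s i)) : Scheme.Modules.IsInvertible M := by
  refine ⟨fun x ↦ ?_⟩
  obtain ⟨i, hi⟩ := Opens.mem_iSup.1 (hU.symm ▸ Opens.mem_top x : x ∈ ⨆ i, U i)
  have heq : (U i).ι ''ᵁ ⊤ = U i := by simp
  have ht := (hs i).mono heq.le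
  let N := (Scheme.Modules.restrictFunctor (U i).ι).obj M
  let t : Γ(N, ⊤) := (M.restrictAppIso (U i).ι ⊤).inv (mres M heq.le (s i))
  have htN : IsFrame N t := fun V h ↦ by
    have hV : (U i).ι ''ᵁ V ≤ (U i).ι ''ᵁ ⊤ := (U i).ι.image_mono h
    have : (fun r : Γ((U i).toScheme, V) ↦ r • mres N h t) =
        (fun r : Γ(X, (U i).ι ''ᵁ V) ↦ r • mres M hV (mres M heq.le (s i))) ∘
          ((U i).ι.appIso V).inv := by
      funext r
      rfl
    rw [this]
    exact (ht _ hV).comp (ConcreteCategory.bijective_of_isIso _)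
  refine ⟨U i, hi, ⟨((Scheme.Modules.restrictFunctorIsoPullback (U i).ι).app M).symm ≪≫ ?_⟩⟩
  have hex := HomOn.existsUnique_glue (M := N) (N := OO (U i).toScheme) (fun _ : Unit ↦ ⊤)
    (by simp) (fun _ ↦ htN.homOn (ofFun 1)) (fun _ _ _ _ _ _ ↦ rfl)
  have : IsIso hex.choose :=
    isIso_of_frames (fun _ : Unit ↦ ⊤) (by simp) _ (fun _ ↦ htN) fun _ ↦ by
      have e : hex.choose.app ⊤ t = ofFun 1 := by
        rw [hex.choose_spec.1 () ⊤ le_rfl]
        simpa using htN.homOn_self (ofFun (1 : Γ((U i).toScheme, ⊤))) le_rfl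
      rw [e]
      exact isFrame_one ⊤
  exact asIso hex.choose

lemma UnitCocycle.isInvertible (D : UnitCocycle X) :
    Scheme.Modules.IsInvertible D.toModules :=
  isInvertible_of_frames D.U D.cover D.isFrame_frame

end

end Fermat.Agent.Picard
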