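/-
Pullback of sections and of frames.
-/
import Fermat.Agent.Picard.Modules.Cocycle

set_option autoImplicit false

universe u

open CategoryTheory CategoryTheory.Limits AlgebraicGeometry TopologicalSpace Opposite

namespace Fermat.Agent.Picard

noncomputable section

variable {X Y : Scheme.{u}}

/-- Being a frame is local. -/
lemma isFrame_of_local {M : X.Modules} {U : X.Opens} (s : Γ(M, U))
    (h : ∀ x ∈ U, ∃ (V : X.Opens) (hV : V ≤ U), x ∈ V ∧ IsFrame M (mres M hV s)) :
    IsFrame M s := by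
  choose V hV hxV hfr using h
  intro W hW
  let V' : W → X.Opens := fun p ↦ W ⊓ V p.1 (hW p.2)
  have hle : ∀ p, V' p ≤ W := fun p ↦ inf_le_left
  have hcov : W ≤ ⨆ p, V' p := fun x hx ↦
    Opens.mem_iSup.2 ⟨⟨x, hx⟩, hx, hxV x (hW hx)⟩
  have hloc : ∀ (p : W) (Z : X.Opens) (hZ : Z ≤ V' p),
      Function.Bijective fun r : Γ(X, Z) ↦ r • mres M (hZ.trans ((hle p).trans hW)) s := fun p Z hZ ↦ by
    simpa using hfr p.1 (hW p.2) Z (hZ.trans inf_le_right)
  constructor
  · intro r r' e
    refine X.sheaf.eq_of_locally_eq' V' W (fun p ↦ homOfLE (hle p)) hcov r r' fun p ↦ ?_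
    refine (hloc p (V' p) le_rfl).1 ?_
    have e' := congrArg (mres M (hle p)) e
    simp only [mres_smul, mres_mres] at e'
    exact e'
  · intro m
    choose r hr using fun p ↦ (hloc p (V' p) le_rfl).2 (mres M (hle p) m)
    obtain ⟨R, hR⟩ : ∃ R : Γ(X, W), ∀ p, ores X (hle p) R = r p :=
      (X.sheaf.existsUnique_gluing' V' W (fun p ↦ homOfLE (hle p)) hcov r
      fun p q ↦ (hloc p (V' p ⊓ V' q) inf_le_left).1 (by
        change ores X inf_le_left (r p) • _ = ores X inf_le_right (r q) • _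
        have e1 := congrArg (mres M (inf_le_left : V' p ⊓ V' q ≤ V' p)) (hr p)
        have e2 := congrArg (mres M (inf_le_right : V' p ⊓ V' q ≤ V' q)) (hr q)
        simp only [mres_smul, mres_mres] at e1 e2
        exact e1.trans e2.symm)).exists
    refine ⟨R, mres_ext V' hle hcov fun p ↦ ?_⟩
    simp only [mres_smul, mres_mres, hR p]
    exact hr p

/-- The pullback of a section. -/
def pullSec (g : Y ⟶ X) (M : X.Modules) {U : X.Opens} (m : Γ(M, U)) :
    Γ((Scheme.Modules.pullback g).obj M, g ⁻¹ᵁ U) :=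
  ((Scheme.Modules.pullbackPushforwardAdjunction g).unit.app M).app U m

variable (g : Y ⟶ X) (M : X.Modules)

lemma pullSec_mres {U V : X.Opens} (h : V ≤ U) (m : Γ(M, U)) :
    pullSec g M (mres M h m) = mres _ (g.preimage_mono h) (pullSec g M m) :=
  app_mres ((Scheme.Modules.pullbackPushforwardAdjunction g).unit.app M) h m

lemma pullSec_smul {U : X.Opens} (r : Γ(X, U)) (m : Γ(M, U)) :
    pullSec g M (r • m) = (g.app U) r • pullSec g M m :=
  ((Scheme.Modules.pullbackPushforwardAdjunction g).unit.app M).app_smul r m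

lemma pullSec_add {U : X.Opens} (m m' : Γ(M, U)) :
    pullSec g M (m + m') = pullSec g M m + pullSec g M m' :=
  map_add (((Scheme.Modules.pullbackPushforwardAdjunction g).unit.app M).app U).hom m m'

lemma app_homEquiv {N : Y.Modules} (ψ : (Scheme.Modules.pullback g).obj M ⟶ N) {U : X.Opens}
    (m : Γ(M, U)) :
    (((Scheme.Modules.pullbackPushforwardAdjunction g).homEquiv M N) ψ).app U m =
      ψ.app (g ⁻¹ᵁ U) (pullSec g M m) := by
  rw [Adjunction.homEquiv_unit, Scheme.Modules.Hom.comp_app]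
  rfl

variable {M}

/-- restriction of functions along `k` on the part over `U` -/
def localApp {Z : Scheme.{u}} (k : Z ⟶ X) (U : X.Opens) (hk : k ⁻¹ᵁ U = ⊤) (V : X.Opens) :
    Γ(X, V ⊓ U) →+* Γ(Z, k ⁻¹ᵁ V) :=
  (ores Z (show k ⁻¹ᵁ V ≤ k ⁻¹ᵁ (V ⊓ U) by rw [Scheme.Hom.preimage_inf, hk, inf_top_eq])).comp
    (k.app (V ⊓ U)).hom

lemma localApp_ores {Z : Scheme.{u}} (k : Z ⟶ X) (U : X.Opens) (hk : k ⁻¹ᵁ U = ⊤) {V W : X.Opens}
    (h : W ≤ V) (a : Γ(X, V ⊓ U)) :
    ores Z (k.preimage_mono h) (localApp k U hk V a) =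
      localApp k U hk W (ores X (inf_le_inf h le_rfl) a) := by
  have e := CategoryTheory.congr_fun (k.naturality (homOfLE (inf_le_inf h le_rfl : W ⊓ U ≤ V ⊓ U)).op) a
  simp only [localApp, RingHom.comp_apply, ores_ores]
  rw [show (k.app (W ⊓ U)).hom (ores X (inf_le_inf h le_rfl) a) =
    ores Z (k.preimage_mono (inf_le_inf h le_rfl)) ((k.app (V ⊓ U)).hom a) from e, ores_ores]

/-- Frames pull back to frames. -/
lemma IsFrame.pullSec {U : X.Opens} {s : Γ(M, U)} (hs : IsFrame M s)
    (hM : Scheme.Modules.IsInvertible M) :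
    IsFrame ((Scheme.Modules.pullback g).obj M) (Fermat.Agent.Picard.pullSec g M s) := by
  let U' := g ⁻¹ᵁ U
  let j : U'.toScheme ⟶ Y := U'.ι
  let Q : Y.Modules := (Scheme.Modules.pushforward j).obj (OO U'.toScheme)
  let k := j ≫ g
  have hk : k ⁻¹ᵁ U = ⊤ := U'.ι_preimage_self
  let f : ∀ V : X.Opens, Γ(M, V) → Γ(U'.toScheme, k ⁻¹ᵁ V) := fun V m ↦
    localApp k U hk V (hs.coeff inf_le_right (mres M (inf_le_left : V ⊓ U ≤ V) m))
  have fadd : ∀ V m m', f V (m + m') = f V m + f V m' := fun V m m' ↦ by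
    simp only [f, mres_add, hs.coeff_add, map_add]
  have fsmul : ∀ V (r : Γ(X, V)) m, f V (r • m) = (k.app V) r * f V m := fun V r m ↦ by
    simp only [f, mres_smul, hs.coeff_smul_right, map_mul]
    congr 1
    have e := CategoryTheory.congr_fun (k.naturality (homOfLE (inf_le_left : V ⊓ U ≤ V)).op) r
    simp only [localApp, RingHom.comp_apply]
    rw [show (k.app (V ⊓ U)).hom (ores X inf_le_left r) =
      ores _ (k.preimage_mono inf_le_left) ((k.app V).hom r) from e, ores_ores, ores_self]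
  have fres : ∀ V W (h : W ≤ V) m, f W (mres M h m) = ores _ (k.preimage_mono h) (f V m) := by
    intro V W h m
    simp only [f]
    rw [localApp_ores k U hk h, ← hs.coeff_mres inf_le_right (inf_le_inf h le_rfl), mres_mres,
      mres_mres]
  let φ : M ⟶ (Scheme.Modules.pushforward g).obj Q :=
    ⟨PresheafOfModules.homMk
      { app := fun V ↦ AddCommGrpCat.ofHom (AddMonoidHom.mk' (f V.unop) (fadd V.unop))
        naturality := fun V W h ↦ by
          ext m
          exact fres V.unop W.unop h.unop.le m }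
      (fun V r m ↦ fsmul V.unop r m)⟩
  let ψ := ((Scheme.Modules.pullbackPushforwardAdjunction g).homEquiv M Q).symm φ
  have hψ : ψ.app U' (Fermat.Agent.Picard.pullSec g M s) =
      (f U s : Γ(U'.toScheme, j ⁻¹ᵁ U')) := by
    have := app_homEquiv g M ψ s
    rw [Equiv.apply_symm_apply] at this
    exact this.symm
  have h1 : f U s = 1 := by
    simp only [f, hs.coeff_self, map_one]
  refine isFrame_of_local _ fun y hy ↦ ?_
  obtain ⟨W, t, hyW, ht⟩ := exists_isFrame (hM.pullback g) y
  let V := W ⊓ U'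
  have hW : V ≤ W := inf_le_left
  have hU : V ≤ U' := inf_le_right
  refine ⟨V, hU, ⟨hyW, hy⟩, ?_⟩
  let c := ht.coeff hW (mres _ hU (Fermat.Agent.Picard.pullSec g M s))
  have hc : c • mres _ hW t = mres _ hU (Fermat.Agent.Picard.pullSec g M s) := ht.coeff_smul _ _
  let q : Γ(U'.toScheme, j ⁻¹ᵁ V) := ψ.app V (mres _ hW t)
  have e : (j.app V c) * q = 1 := by
    have e1 : ψ.app V (c • mres _ hW t) = c • ψ.app V (mres _ hW t) := ψ.app_smul _ _
    rw [hc, app_mres, hψ] at e1
    refine e1.symm.trans ?_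
    change ores _ (j.preimage_mono hU) (f U s) = 1
    rw [h1]
    exact map_one (ores U'.toScheme (j.preimage_mono hU))
  have hj : IsIso (j.app V) := U'.ι.isIso_app V (by simpa using hU)
  have huc : IsUnit c := by
    have h2 : IsUnit ((inv (j.app V)).hom ((j.app V).hom c)) :=
      (IsUnit.of_mul_eq_one _ e).map (inv (j.app V)).hom
    rwa [← CategoryTheory.comp_apply, IsIso.hom_inv_id] at h2
  rw [← hc]
  exact (ht.mono hW).unit_smul huc.unit

/-- The pullback of an invertible module has the expected frames around each point. -/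
lemma exists_pullSec_frame (hM : Scheme.Modules.IsInvertible M) (y : Y) :
    ∃ (U : X.Opens) (s : Γ(M, U)), IsFrame M s ∧ y ∈ g ⁻¹ᵁ U ∧
      IsFrame ((Scheme.Modules.pullback g).obj M) (pullSec g M s) := by
  obtain ⟨U, s, hy, hs⟩ := exists_isFrame hM (g.base y)
  exact ⟨U, s, hs, hy, hs.pullSec g hM⟩

end

end Fermat.Agent.Picard
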