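/-
Sections of invertible sheaves over affine opens.
-/
import Fermat.Agent.Picard.Data
import Fermat.Agent.Picard.Modules.Pullback

set_option autoImplicit false

universe u

open CategoryTheory CategoryTheory.Limits AlgebraicGeometry TopologicalSpace Opposite
open scoped TensorProduct

namespace Fermat.Agent.Picard

noncomputable section

variable {X : Scheme.{u}} {M : X.Modules} {W : X.Opens}

/-- A finite cover of an affine open by basic opens carrying frames. -/
lemma exists_basic_frames (hM : Scheme.Modules.IsInvertible M) (hW : IsAffineOpen W) :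
    ∃ (ι : Type u) (_ : Fintype ι) (g : ι → Γ(X, W)) (s : ∀ i, Γ(M, X.basicOpen (g i))),
      (⨆ i, X.basicOpen (g i)) = W ∧ ∀ i, IsFrame M (s i) := by
  classical
  choose U t hxU ht using fun x : W ↦ exists_isFrame hM x.1
  choose g hg hxg using fun x : W ↦
    hW.exists_basicOpen_le (V := U x) ⟨x.1, hxU x⟩ x.2
  obtain ⟨σ, hσ⟩ := hW.isCompact.elim_finite_subcover (fun x : W ↦ (X.basicOpen (g x) : Set X))
    (fun x ↦ (X.basicOpen (g x)).isOpen) (fun x hx ↦ Set.mem_iUnion.2 ⟨⟨x, hx⟩, hxg ⟨x, hx⟩⟩)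
  refine ⟨σ, inferInstance, fun i ↦ g i.1, fun i ↦ mres M (hg i.1) (t i.1),
    le_antisymm (iSup_le fun i ↦ X.basicOpen_le _) (fun x hx ↦ ?_), fun i ↦ (ht i.1).mono _⟩
  obtain ⟨p, hp, hxp⟩ := Set.mem_iUnion₂.1 (hσ hx)
  exact Opens.mem_iSup.2 ⟨⟨p, hp⟩, hxp⟩

lemma span_eq_top_of_cover (hW : IsAffineOpen W) {ι : Type*} (g : ι → Γ(X, W))
    (h : (⨆ i, X.basicOpen (g i)) = W) : Ideal.span (Set.range g) = ⊤ := by
  rw [← hW.iSup_basicOpen_eq_self_iff]
  refine le_antisymm (iSup_le fun f ↦ X.basicOpen_le _) (h.ge.trans (iSup_le fun i ↦ ?_))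
  exact le_iSup (fun f : Set.range g ↦ X.basicOpen (f : Γ(X, W))) ⟨g i, i, rfl⟩

/-- separatedness of functions -/
lemma ring_sep (hW : IsAffineOpen W) {f : Γ(X, W)} {c : Γ(X, W)} {D : X.Opens}
    (hD : D = X.basicOpen f) (hDW : D ≤ W) (h : ores X hDW c = 0) : ∃ n : ℕ, f ^ n * c = 0 := by
  subst hD
  letI := hW.isLocalization_basicOpen f
  have h' : algebraMap Γ(X, W) Γ(X, X.basicOpen f) c = algebraMap Γ(X, W) Γ(X, X.basicOpen f) 0 := by
    rw [map_zero]; exact h
  obtain ⟨⟨_, n, rfl⟩, hn⟩ := (IsLocalization.eq_iff_exists (Submonoid.powers f) _).1 h'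
  exact ⟨n, by simpa using hn⟩

/-- existence of functions -/
lemma ring_exists (hW : IsAffineOpen W) {f : Γ(X, W)} {D : X.Opens}
    (hD : D = X.basicOpen f) (hDW : D ≤ W) (c : Γ(X, D)) :
    ∃ (n : ℕ) (a : Γ(X, W)), ores X hDW a = ores X hDW f ^ n * c := by
  subst hD
  letI := hW.isLocalization_basicOpen f
  obtain ⟨⟨a, ⟨_, n, rfl⟩⟩, hn⟩ := IsLocalization.surj (Submonoid.powers f) c
  refine ⟨n, a, ?_⟩
  rw [mul_comm, ← map_pow]
  exact hn.symm

lemma isUnit_ores_basicOpen (f : Γ(X, W)) {D : X.Opens} (hD : D ≤ X.basicOpen f) (hDW : D ≤ W) :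
    IsUnit (ores X hDW f) := by
  have h : IsUnit (ores X (X.basicOpen_le f) f) :=
    RingedSpace.isUnit_res_basicOpen X.toRingedSpace f
  simpa using h.map (ores X hD)

/-- Separatedness of sections on basic opens. -/
lemma sec_sep (hM : Scheme.Modules.IsInvertible M) (hW : IsAffineOpen W) (f : Γ(X, W))
    (m : Γ(M, W)) (h : mres M (X.basicOpen_le f) m = 0) : ∃ n : ℕ, f ^ n • m = 0 := by
  obtain ⟨ι, _, g, s, hc, hs⟩ := exists_basic_frames hM hW
  have key : ∀ i, ∃ n : ℕ, mres M (X.basicOpen_le (g i)) (f ^ n • m) = 0 := fun i ↦ by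
    have hle := X.basicOpen_le (g i)
    set D := X.basicOpen (g i) ⊓ X.basicOpen f
    have hD : D = X.basicOpen (ores X hle f) := (X.basicOpen_res f (homOfLE hle).op).symm
    obtain ⟨n, hn⟩ := ring_sep (hW.basicOpen (g i)) hD inf_le_left
      (c := (hs i).coeff le_rfl (mres M hle m)) (by
        rw [← (hs i).coeff_mres]
        refine (hs i).coeff_eq _ ?_
        rw [zero_smul, mres_mres]
        have e := congrArg (mres M (inf_le_right : D ≤ X.basicOpen f)) h
        rw [mres_mres, mres_zero] at e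
        exact e.symm)
    refine ⟨n, ?_⟩
    rw [mres_smul, map_pow, ← (hs i).coeff_smul le_rfl (mres M hle m), ← mul_smul, hn, zero_smul]
  choose n hn using key
  refine ⟨Finset.univ.sup n, mres_ext (M := M) (fun i ↦ X.basicOpen (g i))
    (fun i ↦ X.basicOpen_le _) hc.ge fun i ↦ ?_⟩
  rw [← Nat.sub_add_cancel (Finset.le_sup (Finset.mem_univ i) : n i ≤ Finset.univ.sup n), pow_add,
    mul_smul, mres_smul, hn, smul_zero, mres_zero]

/-- Extension of sections from basic opens. -/
lemma sec_exists (hM : Scheme.Modules.IsInvertible M) (hW : IsAffineOpen W) (f : Γ(X, W))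
    (s : Γ(M, X.basicOpen f)) :
    ∃ (n : ℕ) (m : Γ(M, W)),
      mres M (X.basicOpen_le f) m = ores X (X.basicOpen_le f) f ^ n • s := by
  obtain ⟨ι, _, g, t, hc, ht⟩ := exists_basic_frames hM hW
  set D : ι → X.Opens := fun i ↦ X.basicOpen (g i) ⊓ X.basicOpen f with hDdef
  have hle : ∀ i, X.basicOpen (g i) ≤ W := fun i ↦ X.basicOpen_le _
  have key : ∀ i, ∃ (n : ℕ) (a : Γ(M, X.basicOpen (g i))),
      mres M (inf_le_left : D i ≤ _) a =
        ores X (inf_le_left.trans (hle i)) f ^ n • mres M (inf_le_right : D i ≤ _) s := fun i ↦ by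
    obtain ⟨n, a, ha⟩ := ring_exists (hW.basicOpen (g i))
      (X.basicOpen_res f (homOfLE (hle i)).op).symm inf_le_left
      ((ht i).coeff inf_le_left (mres M (inf_le_right : D i ≤ _) s))
    refine ⟨n, a • t i, ?_⟩
    change ores X inf_le_left a = _ at ha
    rw [mres_smul, ha, mul_smul, (ht i).coeff_smul]
    congr 1
    change ores X inf_le_left (ores X (hle i) f) ^ n = _
    rw [ores_ores]
  choose n a ha using key
  let N := Finset.univ.sup n
  let b : ∀ i, Γ(M, X.basicOpen (g i)) := fun i ↦ ores X (hle i) f ^ (N - n i) • a i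
  have hb : ∀ i, mres M (inf_le_left : D i ≤ _) (b i) =
      ores X (inf_le_left.trans (hle i)) f ^ N • mres M (inf_le_right : D i ≤ _) s := fun i ↦ by
    rw [mres_smul, ha i, map_pow, ores_ores, ← mul_smul, ← pow_add,
      Nat.sub_add_cancel (Finset.le_sup (Finset.mem_univ i) : n i ≤ N)]
  have key2 : ∀ i j, ∃ K : ℕ, mres M (inf_le_left : X.basicOpen (g i) ⊓ X.basicOpen (g j) ≤ _)
      (ores X (hle i) f ^ K • b i) =
      mres M inf_le_right (ores X (hle j) f ^ K • b j) := fun i j ↦ by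
    set E := X.basicOpen (g i) ⊓ X.basicOpen (g j) with hE
    have hEW : E ≤ W := inf_le_left.trans (hle i)
    have hEa : IsAffineOpen E := by
      rw [hE, ← X.basicOpen_mul]; exact hW.basicOpen _
    obtain ⟨K, hK⟩ := sec_sep hM hEa (ores X hEW f)
      (mres M inf_le_left (b i) - mres M inf_le_right (b j)) (by
        have hB : X.basicOpen (ores X hEW f) = E ⊓ X.basicOpen f :=
          X.basicOpen_res f (homOfLE hEW).op
        have e1 := congrArg (mres M (show X.basicOpen (ores X hEW f) ≤ D i from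
          hB.le.trans (inf_le_inf inf_le_left le_rfl))) (hb i)
        have e2 := congrArg (mres M (show X.basicOpen (ores X hEW f) ≤ D j from
          hB.le.trans (inf_le_inf inf_le_right le_rfl))) (hb j)
        simp only [mres_mres, mres_smul, map_pow, ores_ores] at e1 e2
        rw [mres, map_sub, ← mres, ← mres, mres_mres, mres_mres, sub_eq_zero]
        exact e1.trans e2.symm)
    refine ⟨K, ?_⟩
    have e1 : mres M (inf_le_left : E ≤ _) (ores X (hle i) f ^ K • b i) =
        ores X hEW f ^ K • mres M inf_le_left (b i) := by rw [mres_smul, map_pow, ores_ores]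
    have e2 : mres M (inf_le_right : E ≤ _) (ores X (hle j) f ^ K • b j) =
        ores X hEW f ^ K • mres M inf_le_right (b j) := by rw [mres_smul, map_pow, ores_ores]
    rw [e1, e2, ← sub_eq_zero, ← smul_sub]
    exact hK
  choose K hK using key2
  let L := Finset.univ.sup fun p : ι × ι ↦ K p.1 p.2
  obtain ⟨m, hm, -⟩ := mres_glue (M := M) (fun i ↦ X.basicOpen (g i)) hle hc.ge
    (fun i ↦ ores X (hle i) f ^ L • b i) fun i j ↦ by
      have hKL : K i j ≤ L := Finset.le_sup (f := fun p : ι × ι ↦ K p.1 p.2) (Finset.mem_univ (i, j))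
      have e := congrArg (ores X ((inf_le_left : X.basicOpen (g i) ⊓ X.basicOpen (g j) ≤ _).trans
        (hle i)) f ^ (L - K i j) • ·) (hK i j)
      simp only [mres_smul, map_pow, ores_ores, ← mul_smul, ← mul_assoc, ← pow_add] at e
      simp only [mres_smul, map_pow, ores_ores]
      rwa [Nat.sub_add_cancel hKL] at e
  refine ⟨L + N, m, mres_ext (M := M) D (fun i ↦ inf_le_right) ?_ fun i ↦ ?_⟩
  · calc X.basicOpen f ≤ (⨆ i, X.basicOpen (g i)) ⊓ X.basicOpen f :=
          le_inf (hc.symm ▸ X.basicOpen_le f) le_rfl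
      _ = ⨆ i, D i := by rw [iSup_inf_eq]
  · have e := congrArg (mres M (inf_le_left : D i ≤ _)) (hm i)
    rw [mres_mres, mres_smul, hb i, map_pow, ores_ores, ← mul_smul, ← pow_add] at e
    rw [mres_mres, mres_smul, map_pow, ores_ores]
    exact e

/-- A module with a rank one identity and a partition of unity is invertible. -/
lemma invertible_of_rank_one {A : Type u} [CommRing A] {P : Type u} [AddCommGroup P] [Module A P]
    {ι : Type*} [Fintype ι] (φ : ι → Module.Dual A P) (m : ι → P) (h1 : ∑ i, φ i (m i) = 1)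
    (h2 : ∀ (ψ : Module.Dual A P) (a b : P), ψ a • b = ψ b • a) : Module.Invertible A P := by
  let e : P ⊗[A] Module.Dual A P →ₗ[A] A :=
    contractRight A P
  have key : ∀ z, z = e z • ∑ i, m i ⊗ₜ[A] φ i := fun z ↦ by
    induction z with
    | zero => simp
    | add z w hz hw => rw [map_add, add_smul, ← hz, ← hw]
    | tmul a ψ =>
      rw [show e (a ⊗ₜ ψ) = ψ a from rfl, Finset.smul_sum]
      calc a ⊗ₜ[A] ψ = ∑ i, (φ i (m i) • a) ⊗ₜ[A] ψ := by
            rw [← TensorProduct.sum_tmul, ← Finset.sum_smul, h1, one_smul]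
        _ = _ := Finset.sum_congr rfl fun i _ ↦ by
            rw [h2 (φ i) (m i) a, TensorProduct.smul_tmul]
            rw [show φ i a • ψ = ψ a • φ i from LinearMap.ext fun b ↦ by
              simp only [LinearMap.smul_apply, smul_eq_mul]
              have := congrArg (φ i) (h2 ψ a b)
              simp only [map_smul, smul_eq_mul] at this
              rw [this, mul_comm], TensorProduct.tmul_smul]
  refine Module.Invertible.left (LinearEquiv.ofBijective e ⟨?_, fun a ↦ ⟨a • ∑ i, m i ⊗ₜ φ i, ?_⟩⟩)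
  · refine (injective_iff_map_eq_zero e).2 fun z hz ↦ ?_
    rw [key z, hz, zero_smul]
  · simp [map_sum, e, h1]

/-- The dual cocycle of a family of frames. -/
abbrev dualCocycle {ι : Type u} (U : ι → X.Opens) (hU : ⨆ i, U i = ⊤) (s : ∀ i, Γ(M, U i))
    (hs : ∀ i, IsFrame M (s i)) : UnitCocycle X where
  ι := ι
  U := U
  cover := hU
  g i j := (((hs j).mono inf_le_right).isUnit_coeff ((hs i).mono inf_le_left) :
    IsUnit (((hs j).mono (inf_le_right : U i ⊓ U j ≤ U j)).coeff le_rfl (mres M inf_le_left (s i)))).unit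
  cocycle i j l := by
    simp only [IsUnit.unit_spec]
    set E := U i ⊓ U j ⊓ U l
    have hi : E ≤ U i := inf_le_left.trans inf_le_left
    have hj : E ≤ U j := inf_le_left.trans inf_le_right
    have hl : E ≤ U l := inf_le_right
    have key : ∀ a b (ha : E ≤ U a) (hb : E ≤ U b),
        ores X (le_inf ha hb) (((hs b).mono (inf_le_right : U a ⊓ U b ≤ U b)).coeff le_rfl
          (mres M inf_le_left (s a))) • mres M hb (s b) = mres M ha (s a) := fun a b ha hb ↦ by
      have e := congrArg (mres M (le_inf ha hb))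
        (((hs b).mono (inf_le_right : U a ⊓ U b ≤ U b)).coeff_smul le_rfl (mres M inf_le_left (s a)))
      simpa [mres_smul] using e
    apply (hs l E hl).1
    simp only
    rw [key i l hi hl, mul_smul, key j l hj hl, key i j hi hj]

section Pairing

variable {ι : Type u} (U : ι → X.Opens) (hU : ⨆ i, U i = ⊤) {t : ∀ i, Γ(M, U i)}
  (ht : ∀ i, IsFrame M (t i))

lemma dualCocycle_gOn_smul (x z : ι) {Z : X.Opens} (hx : Z ≤ U x) (hz : Z ≤ U z) :
    (dualCocycle U hU t ht).gOn (i := x) (j := z) hx hz • mres M hz (t z) = mres M hx (t x) := by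
  have e := congrArg (mres M (le_inf hx hz))
    (((ht z).mono (inf_le_right : U x ⊓ U z ≤ U z)).coeff_smul le_rfl (mres M inf_le_left (t x)))
  simp only [mres_smul, mres_mres] at e
  exact e

/-- components of a section of the dual -/
def comp {V : X.Opens} (τ : (dualCocycle U hU t ht).Sec V) (x : ι) : Γ(X, V ⊓ U x) := τ.1 x

lemma existsUnique_pair {V : X.Opens} (τ : (dualCocycle U hU t ht).Sec V) (m : Γ(M, V)) :
    ∃! r : Γ(X, V), ∀ x, ores X (inf_le_left : V ⊓ U x ≤ V) r =
      comp U hU ht τ x * (ht x).coeff inf_le_right (mres M (inf_le_left : V ⊓ U x ≤ V) m) := by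
  refine X.sheaf.existsUnique_gluing' (fun x ↦ V ⊓ U x) V (fun x ↦ homOfLE inf_le_left)
    (by rw [← inf_iSup_eq, hU, inf_top_eq]) _ fun x z ↦ ?_
  set Z := (V ⊓ U x) ⊓ (V ⊓ U z)
  have hZx : Z ≤ V ⊓ U x := inf_le_left
  have hZz : Z ≤ V ⊓ U z := inf_le_right
  have hτ : ores X hZx (comp U hU ht τ x) = (dualCocycle U hU t ht).gOn (i := x) (j := z)
      (hZx.trans inf_le_right) (hZz.trans inf_le_right) * ores X hZz (comp U hU ht τ z) :=
    τ.2 x z Z hZx hZz
  change ores X hZx (_ * _) = ores X hZz (_ * _)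
  rw [map_mul, map_mul, ← (ht x).coeff_mres, ← (ht z).coeff_mres, mres_mres, mres_mres, hτ]
  set m' := mres M (hZx.trans inf_le_left) m
  have e : (dualCocycle U hU t ht).gOn (i := x) (j := z) (hZx.trans inf_le_right)
      (hZz.trans inf_le_right) * (ht x).coeff (hZx.trans inf_le_right) m' =
      (ht z).coeff (hZz.trans inf_le_right) m' := by
    refine ((ht z).coeff_eq _ ?_).symm
    rw [mul_comm, mul_smul, dualCocycle_gOn_smul U hU ht x z, (ht x).coeff_smul]
  rw [← e]; ring

/-- pairing with the dual -/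
def pair {V : X.Opens} (τ : (dualCocycle U hU t ht).Sec V) (m : Γ(M, V)) : Γ(X, V) :=
  (existsUnique_pair U hU ht τ m).choose

lemma pair_spec {V : X.Opens} (τ : (dualCocycle U hU t ht).Sec V) (m : Γ(M, V)) (x : ι) :
    ores X (inf_le_left : V ⊓ U x ≤ V) (pair U hU ht τ m) =
      comp U hU ht τ x * (ht x).coeff inf_le_right (mres M (inf_le_left : V ⊓ U x ≤ V) m) :=
  (existsUnique_pair U hU ht τ m).choose_spec.1 x

lemma pair_eq {V : X.Opens} {τ : (dualCocycle U hU t ht).Sec V} {m : Γ(M, V)} {r : Γ(X, V)}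
    (h : ∀ x, ores X (inf_le_left : V ⊓ U x ≤ V) r =
      comp U hU ht τ x * (ht x).coeff inf_le_right (mres M (inf_le_left : V ⊓ U x ≤ V) m)) :
    pair U hU ht τ m = r :=
  ((existsUnique_pair U hU ht τ m).choose_spec.2 r h).symm

lemma pair_add {V : X.Opens} (τ : (dualCocycle U hU t ht).Sec V) (m m' : Γ(M, V)) :
    pair U hU ht τ (m + m') = pair U hU ht τ m + pair U hU ht τ m' :=
  pair_eq U hU ht fun x ↦ by
    rw [map_add, pair_spec, pair_spec, mres_add, (ht x).coeff_add, mul_add]

lemma pair_smul {V : X.Opens} (τ : (dualCocycle U hU t ht).Sec V) (r : Γ(X, V)) (m : Γ(M, V)) :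
    pair U hU ht τ (r • m) = r * pair U hU ht τ m :=
  pair_eq U hU ht fun x ↦ by
    rw [map_mul, pair_spec, mres_smul, (ht x).coeff_smul_right]; ring

lemma pair_smul_left {V : X.Opens} (r : Γ(X, V)) (τ : (dualCocycle U hU t ht).Sec V) (m : Γ(M, V)) :
    pair U hU ht (r • τ) m = r * pair U hU ht τ m :=
  pair_eq U hU ht fun x ↦ by
    rw [map_mul, pair_spec, show comp U hU ht (r • τ) x = ores X inf_le_left r * comp U hU ht τ x
      from rfl]
    ring

lemma pair_res {V V' : X.Opens} (h : V' ≤ V) (τ : (dualCocycle U hU t ht).Sec V) (m : Γ(M, V)) :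
    pair U hU ht ((dualCocycle U hU t ht).resSec h τ) (mres M h m) =
      ores X h (pair U hU ht τ m) :=
  pair_eq U hU ht fun x ↦ by
    have e := congrArg (ores X (inf_le_inf h le_rfl : V' ⊓ U x ≤ V ⊓ U x)) (pair_spec U hU ht τ m x)
    rw [ores_ores, map_mul, ← (ht x).coeff_mres, mres_mres] at e
    rw [ores_ores, mres_mres]
    exact e

lemma exists_pair_eq_one {V : X.Opens} {s : Γ(M, V)} (hs : IsFrame M s) :
    ∃ τ : (dualCocycle U hU t ht).Sec V, pair U hU ht τ s = 1 := by
  let u : ∀ x, Γ(X, V ⊓ U x) := fun x ↦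
    hs.coeff inf_le_left (mres M (inf_le_right : V ⊓ U x ≤ U x) (t x))
  have hu : ∀ x, u x • mres M inf_le_left s = mres M inf_le_right (t x) := fun x ↦
    hs.coeff_smul _ _
  have hmem : ∀ x z (Z : X.Opens) (hx : Z ≤ V ⊓ U x) (hz : Z ≤ V ⊓ U z), ores X hx (u x) =
      (dualCocycle U hU t ht).gOn (i := x) (j := z) (hx.trans inf_le_right) (hz.trans inf_le_right) *
        ores X hz (u z) := fun x z Z hx hz ↦ by
    refine (hs Z (hx.trans inf_le_left)).1 ?_
    have e1 := congrArg (mres M hx) (hu x)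
    have e2 := congrArg (mres M hz) (hu z)
    simp only [mres_smul, mres_mres] at e1 e2 ⊢
    rw [mul_smul, e1, e2]
    exact (dualCocycle_gOn_smul U hU ht x z _ _).symm
  refine ⟨⟨u, hmem⟩, pair_eq U hU ht fun x ↦ ?_⟩
  rw [show comp U hU ht (⟨u, hmem⟩ : (dualCocycle U hU t ht).Sec V) x = u x from rfl, map_one,
    ← (ht x).coeff_smul_right, hu x, (ht x).coeff_self]

end Pairing

/-- Sections of an invertible sheaf over an affine open form an invertible module. -/
lemma invertible_sections (hM : Scheme.Modules.IsInvertible M) (hW : IsAffineOpen W) :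
    Module.Invertible Γ(X, W) Γ(M, W) := by
  classical
  obtain ⟨ι, _, g, s, hc, hs⟩ := exists_basic_frames hM hW
  have hle : ∀ i, X.basicOpen (g i) ≤ W := fun i ↦ X.basicOpen_le _
  choose U t hxU ht using fun x : X ↦ exists_isFrame hM x
  have hU : ⨆ x, U x = ⊤ := eq_top_iff.2 fun x _ ↦ Opens.mem_iSup.2 ⟨x, hxU x⟩
  -- rank one identity
  have h2 : ∀ (ψ : Module.Dual Γ(X, W) Γ(M, W)) (a b : Γ(M, W)), ψ a • b = ψ b • a := by
    intro ψ a b
    refine mres_ext (fun i ↦ X.basicOpen (g i)) hle hc.ge fun i ↦ ?_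
    obtain ⟨n, a', ha'⟩ := sec_exists hM hW (g i) (s i)
    set D' := X.basicOpen (g i)
    have hu : IsUnit (ores X (hle i) (g i) ^ n) := (isUnit_ores_basicOpen (g i) le_rfl _).pow n
    have hfr : IsFrame M (mres M (hle i) a') := by
      rw [ha']; exact (hs i).unit_smul hu.unit
    have hlin : ∀ c : Γ(M, W), ores X (hle i) (ψ c) =
        hfr.coeff le_rfl (mres M (hle i) c) * ores X (hle i) (ψ a') := fun c ↦ by
      obtain ⟨q, r, hr⟩ := ring_exists hW (f := g i) rfl (hle i) (hfr.coeff le_rfl (mres M (hle i) c))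
      have h0 : mres M (hle i) (g i ^ q • c - r • a') = 0 := by
        rw [mres, map_sub, ← mres, ← mres, mres_smul, mres_smul, map_pow, hr, mul_smul]
        have := hfr.coeff_smul le_rfl (mres M (hle i) c)
        rw [mres_self] at this
        rw [this, sub_self]
      obtain ⟨K, hK⟩ := sec_sep hM hW (g i) _ h0
      have h1 := congrArg (fun z ↦ ores X (hle i) (ψ z)) hK
      simp only [map_smul, map_sub, smul_eq_mul, map_zero, map_mul, map_pow] at h1
      have hug := (isUnit_ores_basicOpen (g i) (le_refl D') (hle i))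
      rw [(hug.pow K).mul_right_eq_zero, sub_eq_zero, hr, mul_assoc] at h1
      exact (hug.pow q).mul_left_cancel h1
    rw [mres_smul, mres_smul, hlin a, hlin b]
    conv_lhs => rw [← hfr.coeff_smul le_rfl (mres M (hle i) b)]
    conv_rhs => rw [← hfr.coeff_smul le_rfl (mres M (hle i) a)]
    rw [← mul_smul, ← mul_smul]
    congr 1
    ring
  -- partition of unity
  have key : ∀ i, ∃ (τ : (dualCocycle U hU t ht).Sec W) (m : Γ(M, W)) (n : ℕ),
      pair U hU ht τ m = g i ^ n := fun i ↦ by
    set D' := X.basicOpen (g i)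
    obtain ⟨τ', hτ⟩ := exists_pair_eq_one U hU ht (hs i)
    obtain ⟨n, τ, hτn⟩ := sec_exists (dualCocycle U hU t ht).isInvertible hW (g i)
      (τ' : Γ((dualCocycle U hU t ht).toModules, D'))
    obtain ⟨n', m, hm⟩ := sec_exists hM hW (g i) (s i)
    have hτn' : (dualCocycle U hU t ht).resSec (hle i) τ = ores X (hle i) (g i) ^ n • τ' := hτn
    have e : ores X (hle i) (pair U hU ht τ m) = ores X (hle i) (g i ^ (n + n')) := by
      rw [← pair_res U hU ht (hle i) τ m, hτn', hm, pair_smul_left, pair_smul, hτ, mul_one, map_pow,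
        pow_add]
    obtain ⟨K, hK⟩ := ring_sep hW (f := g i) rfl (hle i)
      (c := pair U hU ht τ m - g i ^ (n + n')) (by rw [map_sub, e, sub_self])
    refine ⟨(g i ^ K • τ : Γ((dualCocycle U hU t ht).toModules, W)), m, K + (n + n'), ?_⟩
    refine (pair_smul_left U hU ht (g i ^ K) τ m).trans ?_
    rw [pow_add, ← sub_eq_zero, ← mul_sub, hK]
  choose τ m n hn using key
  have hspan := span_eq_top_of_cover hW (fun i ↦ g i ^ n i) (le_antisymm
    (iSup_le fun i ↦ X.basicOpen_le _) (hc.ge.trans (iSup_le fun i ↦ le_iSup_of_le i (by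
      intro x hx
      have hx' := hle i hx
      rw [Scheme.mem_basicOpen X _ x hx'] at hx ⊢
      rw [map_pow]; exact hx.pow _))))
  obtain ⟨c, hc1⟩ := (Ideal.mem_span_range_iff_exists_fun).1 (hspan ▸ Submodule.mem_top (x := (1 : Γ(X, W))))
  exact invertible_of_rank_one
    (fun i ↦ c i •
      { toFun := pair U hU ht (τ i), map_add' := pair_add U hU ht (τ i),
        map_smul' := pair_smul U hU ht (τ i) })
    m (by simpa [hn] using hc1) h2

section Extension

variable {Y : Scheme.{u}} (g : Y ⟶ X)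

/-- Pullback of sections as a semilinear map. -/
def pullSecₛₗ (M : X.Modules) (U : X.Opens) :
    Γ(M, U) →ₛₗ[(g.app U).hom] Γ((Scheme.Modules.pullback g).obj M, g ⁻¹ᵁ U) where
  toFun := Fermat.Agent.Picard.pullSec g M
  map_add' := pullSec_add g M
  map_smul' := pullSec_smul g M

/-- A semilinear map of invertible modules with spanning image is an extension of scalars. -/
lemma isScalarExtension_of_span {S T : Type u} [CommRing S] [CommRing T] (φ : S →+* T)
    {P Q : Type u} [AddCommGroup P] [Module S P] [AddCommGroup Q] [Module T Q]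
    [Module.Invertible S P] [Module.Invertible T Q] (f : P →ₛₗ[φ] Q)
    (h : Submodule.span T (Set.range f) = ⊤) : IsScalarExtension φ f := by
  let : Algebra S T := φ.toAlgebra
  let : Module S Q := Module.compHom Q φ
  have : IsScalarTower S T Q := IsScalarTower.of_algebraMap_smul fun _ _ ↦ rfl
  let f' : P →ₗ[S] Q := { toFun := f, map_add' := f.map_add, map_smul' := f.map_smulₛₗ }
  let e : T ⊗[S] P →ₗ[T] Q := LinearMap.liftBaseChange T f'
  have hsurj : Function.Surjective e := by
    rw [← LinearMap.range_eq_top, eq_top_iff, ← h, Submodule.span_le]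
    rintro _ ⟨p, rfl⟩
    exact ⟨1 ⊗ₜ p, by simp [e, f']⟩
  have hbij : Function.Bijective e := Module.Invertible.bijective_of_surjective hsurj
  intro Z _ _ k
  let : Module S Z := Module.compHom Z φ
  have : IsScalarTower S T Z := IsScalarTower.of_algebraMap_smul fun _ _ ↦ rfl
  let k' : P →ₗ[S] Z := { toFun := k, map_add' := k.map_add, map_smul' := k.map_smulₛₗ }
  let E := LinearEquiv.ofBijective e hbij
  refine ⟨LinearMap.liftBaseChange T k' ∘ₗ E.symm.toLinearMap, fun p ↦ ?_, fun h' hh' ↦ ?_⟩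
  · have : E.symm (f p) = 1 ⊗ₜ p := E.symm_apply_eq.2 (by simp [E, e, f'])
    simp [this, k']
  · refine LinearMap.ext_on h ?_
    rintro _ ⟨p, rfl⟩
    have : E.symm (f p) = 1 ⊗ₜ p := E.symm_apply_eq.2 (by simp [E, e, f'])
    simp [this, k', hh' p]

/-- Pullback of sections along an affine map is an extension of scalars. -/
lemma isScalarExtension_pullSec (hM : Scheme.Modules.IsInvertible M) (hW : IsAffineOpen W)
    (hW' : IsAffineOpen (g ⁻¹ᵁ W)) : IsScalarExtension _ (pullSecₛₗ g M W) := by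
  have := invertible_sections hM hW
  have := invertible_sections (hM.pullback g) hW'
  refine isScalarExtension_of_span _ _ ?_
  obtain ⟨ι, _, a, s, hc, hs⟩ := exists_basic_frames hM hW
  set N := (Scheme.Modules.pullback g).obj M
  set T := Submodule.span Γ(Y, g ⁻¹ᵁ W) (Set.range (pullSecₛₗ g M W))
  let b : ι → Γ(Y, g ⁻¹ᵁ W) := fun i ↦ (g.app W).hom (a i)
  have hb : ∀ i, g ⁻¹ᵁ X.basicOpen (a i) = Y.basicOpen (b i) := fun i ↦
    Scheme.preimage_basicOpen g (a i)
  have hspan := span_eq_top_of_cover hW' b (by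
    simp_rw [← hb]
    rw [← Scheme.Hom.preimage_iSup, hc])
  refine eq_top_iff.2 fun n _ ↦ ?_
  have key : ∀ i, ∃ L : ℕ, b i ^ L • n ∈ T := fun i ↦ by
    obtain ⟨p, m, hm⟩ := sec_exists hM hW (a i) (s i)
    have hD := hb i
    have hDW : g ⁻¹ᵁ X.basicOpen (a i) ≤ g ⁻¹ᵁ W := g.preimage_mono (X.basicOpen_le _)
    have hf := IsFrame.pullSec g (hs i) hM
    obtain ⟨q, c, hq⟩ := ring_exists hW' hD hDW (hf.coeff le_rfl (mres N hDW n))
    have hmp : mres N hDW (Fermat.Agent.Picard.pullSec g M m) =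
        ores Y hDW (b i) ^ p • Fermat.Agent.Picard.pullSec g M (s i) := by
      rw [← pullSec_mres g M (X.basicOpen_le (a i)) m, hm, pullSec_smul, map_pow]
      congr 2
      exact CategoryTheory.congr_fun (g.naturality (homOfLE (X.basicOpen_le (a i))).op) (a i)
    have h0 : mres N hDW (b i ^ (p + q) • n - c • Fermat.Agent.Picard.pullSec g M m) = 0 := by
      rw [mres, map_sub, ← mres, ← mres, mres_smul, mres_smul, hmp, hq, map_pow, sub_eq_zero,
        ← mul_smul]
      conv_lhs => rw [← hf.coeff_smul le_rfl (mres N hDW n), ← mul_smul, mres_self]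
      congr 1
      ring
    have h1 : ∀ (D : Y.Opens) (_ : g ⁻¹ᵁ X.basicOpen (a i) = D) (hD : D ≤ g ⁻¹ᵁ W),
        mres N hD (b i ^ (p + q) • n - c • Fermat.Agent.Picard.pullSec g M m) = 0 := by
      rintro _ rfl hD; exact h0
    obtain ⟨K, hK⟩ := sec_sep (hM.pullback g) hW' (b i) _ (h1 _ hD (Y.basicOpen_le _))
    refine ⟨K + (p + q), ?_⟩
    rw [smul_sub, sub_eq_zero] at hK
    rw [pow_add, mul_smul, hK]
    exact T.smul_mem _ (T.smul_mem _ (Submodule.subset_span ⟨m, rfl⟩))
  choose L hL using key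
  refine T.mem_of_span_eq_top_of_smul_pow_mem (Set.range b) hspan n ?_
  rintro ⟨_, i, rfl⟩
  exact ⟨L i, hL i⟩

end Extension

end

end Fermat.Agent.Picard
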