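/-
The sheaf of an invertible module on an affine scheme.
-/
import Fermat.Agent.Picard.Modules.Affine

set_option autoImplicit false

universe u

open CategoryTheory CategoryTheory.Limits AlgebraicGeometry TopologicalSpace Opposite

namespace Fermat.Agent.Picard

noncomputable section

variable {S : CommRingCat.{u}}

/-- A basic open of `Spec S`, as an open of the scheme. -/
abbrev sbo (a : S) : (Spec S).Opens := PrimeSpectrum.basicOpen a

lemma exists_sbo_le {V : (Spec S).Opens} {x : Spec S} (hx : x ∈ V) :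
    ∃ b : S, x ∈ sbo b ∧ sbo b ≤ V := by
  obtain ⟨_, ⟨_, ⟨b, rfl⟩, rfl⟩, hxb, hbV⟩ :=
    PrimeSpectrum.isBasis_basic_opens.exists_subset_of_mem_open hx V.2
  exact ⟨b, hxb, hbV⟩

/-- It suffices to test frames on basic opens. -/
lemma isFrame_of_basicOpens {M : (Spec S).Modules} {U : (Spec S).Opens} (s : Γ(M, U))
    (h : ∀ (b : S) (hb : sbo b ≤ U),
      Function.Bijective fun r : Γ(Spec S, sbo b) ↦ r • mres M hb s) : IsFrame M s := by
  intro V hV
  choose b hb hbV using fun p : V ↦ exists_sbo_le p.2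
  let B : V → (Spec S).Opens := fun p ↦ sbo (b p)
  have hcov : V ≤ ⨆ p, B p := fun x hx ↦ Opens.mem_iSup.2 ⟨⟨x, hx⟩, hb ⟨x, hx⟩⟩
  constructor
  · intro r r' e
    refine (Spec S).sheaf.eq_of_locally_eq' B V (fun p ↦ homOfLE (hbV p)) hcov r r' fun p ↦ ?_
    refine (h (b p) ((hbV p).trans hV)).1 ?_
    have e' := congrArg (mres M (hbV p)) e
    simp only [mres_smul, mres_mres] at e'
    exact e'
  · intro m
    choose r hr using fun p ↦ (h (b p) ((hbV p).trans hV)).2 (mres M (hbV p) m)
    obtain ⟨R, hR⟩ : ∃ R : Γ(Spec S, V), ∀ p, ores (Spec S) (hbV p) R = r p :=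
      ((Spec S).sheaf.existsUnique_gluing' B V (fun p ↦ homOfLE (hbV p)) hcov r fun p q ↦ by
        -- test on smaller basic opens
        choose b' hb' hb'V using fun x : (B p ⊓ B q : (Spec S).Opens) ↦ exists_sbo_le x.2
        refine (Spec S).sheaf.eq_of_locally_eq' (fun x ↦ sbo (b' x)) _ (fun x ↦ homOfLE (hb'V x))
          (fun x hx ↦ Opens.mem_iSup.2 ⟨⟨x, hx⟩, hb' ⟨x, hx⟩⟩) _ _ fun x ↦ ?_
        refine (h (b' x) ((hb'V x).trans (inf_le_left.trans ((hbV p).trans hV)))).1 ?_
        change ores _ (hb'V x) (ores _ inf_le_left (r p)) • _ =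
          ores _ (hb'V x) (ores _ inf_le_right (r q)) • _
        have e1 := congrArg (mres M ((hb'V x).trans inf_le_left)) (hr p)
        have e2 := congrArg (mres M ((hb'V x).trans inf_le_right)) (hr q)
        simp only [mres_smul, mres_mres, ores_ores] at e1 e2 ⊢
        exact e1.trans e2.symm).exists
    refine ⟨R, mres_ext B hbV hcov fun p ↦ ?_⟩
    simp only [mres_smul, mres_mres, hR p]
    exact hr p

variable (N : ModuleCat.{u} S)

/-- A section of `N^~`. -/
def tsec (U : (Spec S).Opens) (p : N) : Γ(tilde N, U) := (tilde.toOpen N U).hom p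

lemma mres_tsec {U V : (Spec S).Opens} (h : V ≤ U) (p : N) :
    mres (tilde N) h (tsec N U p) = tsec N V p :=
  CategoryTheory.congr_fun (tilde.toOpen_res N U V (homOfLE h)) p

lemma tsec_smul (U : (Spec S).Opens) (a : S) (p : N) : tsec N U (a • p) = a • tsec N U p :=
  (tilde.toOpen N U).hom.map_smul a p

lemma tsec_add (U : (Spec S).Opens) (p q : N) : tsec N U (p + q) = tsec N U p + tsec N U q :=
  (tilde.toOpen N U).hom.map_add p q

lemma tsec_top_bijective : Function.Bijective (tsec N ⊤) :=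
  ConcreteCategory.bijective_of_isIso (tilde.toOpen N ⊤)

lemma algebraMap_smul_sec {M : (Spec S).Modules} {U : (Spec S).Opens} (a : S) (m : Γ(M, U)) :
    (algebraMap S Γ(Spec S, U) a) • m = a • m := algebraMap_smul _ a m

/-- A local generator gives a frame. -/
lemma isFrame_tsec [Module.Invertible S N] (a : S) (p : N)
    (hp : ∀ q : N, ∃ (n : ℕ) (r : S), a ^ n • q = r • p) :
    IsFrame (tilde N) (tsec N (sbo a) p) := by
  refine isFrame_of_basicOpens _ fun b hb ↦ ?_
  rw [mres_tsec]
  let f : N →ₗ[S] Γ(tilde N, sbo b) := (tilde.toOpen N (sbo b)).hom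
  have : IsLocalizedModule (Submonoid.powers b) f :=
    inferInstanceAs (IsLocalizedModule.Away b (tilde.toOpen N (PrimeSpectrum.basicOpen b)).hom)
  have : Module.Invertible Γ(Spec S, sbo b) Γ(tilde N, sbo b) :=
    Module.Invertible.of_isLocalization (Submonoid.powers b) f
  let F : Γ(Spec S, sbo b) →ₗ[Γ(Spec S, sbo b)] Γ(tilde N, sbo b) :=
    LinearMap.toSpanSingleton _ _ (tsec N (sbo b) p)
  have hsurj : Function.Surjective F := by
    intro m
    obtain ⟨⟨q, ⟨_, K, rfl⟩⟩, hq⟩ := IsLocalizedModule.surj (Submonoid.powers b) f m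
    obtain ⟨n, r, hr⟩ := hp q
    have hub : IsUnit (algebraMap S Γ(Spec S, sbo b) (b ^ K)) := by
      rw [map_pow]
      exact (IsLocalization.Away.algebraMap_isUnit b).pow K
    obtain ⟨m', hm'⟩ := (PrimeSpectrum.basicOpen_le_basicOpen_iff b a).1 hb
    obtain ⟨e, he⟩ := Ideal.mem_span_singleton.1 hm'
    have hua : IsUnit (algebraMap S Γ(Spec S, sbo b) (a ^ n)) := by
      rw [map_pow]
      refine IsUnit.pow n (isUnit_of_mul_isUnit_left (y := algebraMap S Γ(Spec S, sbo b) e) ?_)
      rw [← map_mul, ← he, map_pow]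
      exact (IsLocalization.Away.algebraMap_isUnit b).pow m'
    refine ⟨((hua.mul hub).unit⁻¹ : Γ(Spec S, sbo b)ˣ) * algebraMap S Γ(Spec S, sbo b) r, ?_⟩
    change ((((hua.mul hub).unit⁻¹ : Γ(Spec S, sbo b)ˣ) : Γ(Spec S, sbo b)) *
      algebraMap S Γ(Spec S, sbo b) r) • tsec N (sbo b) p = m
    rw [mul_smul, algebraMap_smul, ← tsec_smul, ← hr, tsec_smul]
    change _ • a ^ n • f q = m
    rw [← hq]
    change _ • a ^ n • b ^ K • m = m
    rw [← algebraMap_smul Γ(Spec S, sbo b) (b ^ K) m, ← algebraMap_smul Γ(Spec S, sbo b) (a ^ n),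
      ← mul_smul, ← mul_smul, mul_assoc]
    erw [IsUnit.val_inv_mul]
    exact one_smul _ m
  exact (Module.Invertible.bijective_of_surjective hsurj)

/-- An invertible module has generators on a basic open cover. -/
lemma exists_generators {S : Type u} [CommRing S] (N : Type u) [AddCommGroup N] [Module S N]
    [Module.Invertible S N] :
    ∃ (ι : Type u) (_ : Fintype ι) (a : ι → S) (p : ι → N), Ideal.span (Set.range a) = ⊤ ∧
      ∀ i (q : N), ∃ (n : ℕ) (r : S), a i ^ n • q = r • p i := by
  classical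
  obtain ⟨σ, hσ, hfree⟩ := Module.Invertible.exists_finset_free_localization (R := S) (M := N)
  have key : ∀ r : σ, ∃ p : N, ∀ q : N, ∃ (n : ℕ) (s : S), (r : S) ^ n • q = s • p := by
    rintro ⟨r, hr⟩
    have := hfree r hr
    obtain ⟨e⟩ := Module.Invertible.free_iff_linearEquiv.1 this
    let mk := LocalizedModule.mkLinearMap (Submonoid.powers r) N
    obtain ⟨⟨p, ⟨_, j, rfl⟩⟩, hp⟩ := IsLocalizedModule.surj (Submonoid.powers r) mk (e.symm 1)
    refine ⟨p, fun q ↦ ?_⟩
    obtain ⟨⟨s, ⟨_, i, rfl⟩⟩, hs⟩ := IsLocalization.surj (Submonoid.powers r) (e (mk q))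
    have hep : e (mk p) = algebraMap S _ (r ^ j) := by
      rw [← hp, Submonoid.smul_def, ← algebraMap_smul (Localization.Away r) (r ^ j) (e.symm 1),
        map_smul, LinearEquiv.apply_symm_apply, smul_eq_mul, mul_one]
    have h : mk (r ^ (i + j) • q) = mk (s • p) := by
      refine e.injective ?_
      rw [mk.map_smul, mk.map_smul, ← algebraMap_smul (Localization.Away r) (r ^ (i + j)) (mk q),
        ← algebraMap_smul (Localization.Away r) s (mk p), map_smul, map_smul, smul_eq_mul,
        smul_eq_mul, hep, pow_add, map_mul, ← hs]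
      ring
    obtain ⟨⟨_, l, rfl⟩, hl⟩ := (IsLocalizedModule.eq_iff_exists (Submonoid.powers r) mk).1 h
    refine ⟨l + (i + j), r ^ l * s, ?_⟩
    simp only [Submonoid.smul_def] at hl
    rw [pow_add, mul_smul, hl, mul_smul]
  choose p hp using key
  exact ⟨σ, inferInstance, fun r ↦ (r : S), p, by simpa using hσ, hp⟩

/-- The sheaf of an invertible module is invertible. -/
lemma isInvertible_tilde [Module.Invertible S N] :
    Scheme.Modules.IsInvertible (tilde N) := by
  obtain ⟨ι, _, a, p, hspan, hp⟩ := exists_generators (S := S) N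
  refine isInvertible_of_frames (fun i ↦ sbo (a i)) ?_ (s := fun i ↦ tsec N _ (p i))
    fun i ↦ isFrame_tsec N (a i) (p i) (hp i)
  exact PrimeSpectrum.iSup_basicOpen_eq_top_iff.2 hspan

end

end Fermat.Agent.Picard
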