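/-
Morphisms of modules on an open set, and gluing of invertible modules.
-/
import Fermat.Agent.Picard.Modules.Pullback

set_option autoImplicit false

universe u

open CategoryTheory CategoryTheory.Limits AlgebraicGeometry TopologicalSpace Opposite

namespace Fermat.Agent.Picard

noncomputable section

variable {X : Scheme.{u}} {M N P Q : X.Modules}

/-- `M` has frames around every point of `U`. -/
def InvOn (M : X.Modules) (U : X.Opens) : Prop :=
  ∀ x ∈ U, ∃ (V : X.Opens) (s : Γ(M, V)), V ≤ U ∧ x ∈ V ∧ IsFrame M s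

lemma InvOn.mono {U U' : X.Opens} (h : InvOn M U) (h' : U' ≤ U) : InvOn M U' := fun x hx ↦ by
  obtain ⟨V, s, hV, hxV, hs⟩ := h x (h' hx)
  exact ⟨V ⊓ U', mres M inf_le_left s, inf_le_right, ⟨hxV, hx⟩, hs.mono _⟩

lemma invOn_of_isInvertible (hM : Scheme.Modules.IsInvertible M) (U : X.Opens) : InvOn M U :=
  fun x hx ↦ by
    obtain ⟨V, s, hxV, hs⟩ := exists_isFrame hM x
    exact ⟨V ⊓ U, mres M inf_le_left s, inf_le_right, ⟨hxV, hx⟩, hs.mono _⟩

namespace HomOn

variable {U : X.Opens}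

@[ext] lemma ext {F G : HomOn M N U} (h : ∀ V hV m, F.app V hV m = G.app V hV m) : F = G := by
  cases F; cases G
  congr 1
  funext V hV m
  exact h V hV m

/-- restriction to a smaller open -/
def res (F : HomOn M N U) {U' : X.Opens} (h : U' ≤ U) : HomOn M N U' where
  app Z hZ := F.app Z (hZ.trans h)
  map_add Z hZ := F.map_add Z _
  map_smul Z hZ := F.map_smul Z _
  map_res Z hZ Y hY m := F.map_res Z _ Y hY m

@[simp] lemma res_app (F : HomOn M N U) {U' : X.Opens} (h : U' ≤ U) (V : X.Opens) (hV : V ≤ U')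
    (m : Γ(M, V)) : (F.res h).app V hV m = F.app V (hV.trans h) m := rfl

variable (M U) in
/-- identity -/
def id : HomOn M M U where
  app _ _ m := m
  map_add _ _ _ _ := rfl
  map_smul _ _ _ _ := rfl
  map_res _ _ _ _ _ := rfl

/-- composition -/
def comp (F : HomOn M N U) (G : HomOn N P U) : HomOn M P U where
  app V h m := G.app V h (F.app V h m)
  map_add V h m m' := by rw [F.map_add, G.map_add]
  map_smul V h r m := by rw [F.map_smul, G.map_smul]
  map_res V h W h' m := by rw [F.map_res V h W h', G.map_res V h W h']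

@[simp] lemma id_app (V : X.Opens) (h : V ≤ U) (m : Γ(M, V)) : (id M U).app V h m = m := rfl

@[simp] lemma comp_app (F : HomOn M N U) (G : HomOn N P U) (V : X.Opens) (h : V ≤ U)
    (m : Γ(M, V)) : (F.comp G).app V h m = G.app V h (F.app V h m) := rfl

/-- scaling by a function -/
def smulFun (f : Γ(X, U)) (F : HomOn M N U) : HomOn M N U where
  app V h m := ores X h f • F.app V h m
  map_add V h m m' := by rw [F.map_add, smul_add]
  map_smul V h r m := by rw [F.map_smul, ← mul_smul, ← mul_smul, mul_comm]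
  map_res V h W h' m := by rw [F.map_res V h W h', mres_smul, ores_ores]

@[simp] lemma smulFun_app (f : Γ(X, U)) (F : HomOn M N U) (V : X.Opens) (h : V ≤ U)
    (m : Γ(M, V)) : (F.smulFun f).app V h m = ores X h f • F.app V h m := rfl

/-- bijective on all opens inside `U` -/
def IsIso (F : HomOn M N U) : Prop := ∀ V h, Function.Bijective (F.app V h)

lemma IsIso.res {F : HomOn M N U} (hF : F.IsIso) {U' : X.Opens} (h : U' ≤ U) :
    (F.res h).IsIso := fun V _ ↦ hF V _

lemma IsIso.comp {F : HomOn M N U} {G : HomOn N P U} (hF : F.IsIso) (hG : G.IsIso) :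
    (F.comp G).IsIso := fun V h ↦ (hG V h).comp (hF V h)

lemma isIso_id : (id M U).IsIso := fun _ _ ↦ Function.bijective_id

lemma IsIso.smulFun {F : HomOn M N U} (hF : F.IsIso) {f : Γ(X, U)} (hf : IsUnit f) :
    (F.smulFun f).IsIso := fun V h ↦
  (show Function.Bijective fun n : Γ(N, V) ↦ ores X h f • n from
    (hf.map (ores X h)).smul_bijective).comp (hF V h)

lemma IsIso.map_frame {F : HomOn M N U} (hF : F.IsIso) {V : X.Opens} (h : V ≤ U) {s : Γ(M, V)}
    (hs : IsFrame M s) : IsFrame N (F.app V h s) := fun W hW ↦ by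
  have : (fun r : Γ(X, W) ↦ r • mres N hW (F.app V h s)) =
      F.app W (hW.trans h) ∘ fun r : Γ(X, W) ↦ r • mres M hW s := by
    funext r
    simp [Function.comp, F.map_smul, F.map_res V h W hW]
  rw [this]
  exact (hF W _).comp (hs W hW)

/-- inverse -/
def IsIso.inv {F : HomOn M N U} (hF : F.IsIso) : HomOn N M U where
  app V h n := (Equiv.ofBijective _ (hF V h)).symm n
  map_add V h n n' := by
    apply (hF V h).1
    rw [F.map_add]
    simp only [Equiv.ofBijective_apply_symm_apply (F.app V h) (hF V h)]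
  map_smul V h r n := by
    apply (hF V h).1
    rw [F.map_smul]
    simp only [Equiv.ofBijective_apply_symm_apply (F.app V h) (hF V h)]
  map_res V h W h' n := by
    apply (hF W _).1
    rw [F.map_res V h W h']
    simp only [Equiv.ofBijective_apply_symm_apply (F.app V h) (hF V h),
      Equiv.ofBijective_apply_symm_apply (F.app W (h'.trans h)) (hF W _)]

lemma IsIso.app_inv {F : HomOn M N U} (hF : F.IsIso) (V : X.Opens) (h : V ≤ U) (n : Γ(N, V)) :
    F.app V h (hF.inv.app V h n) = n :=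
  Equiv.ofBijective_apply_symm_apply (F.app V h) (hF V h) n

lemma IsIso.inv_app {F : HomOn M N U} (hF : F.IsIso) (V : X.Opens) (h : V ≤ U) (m : Γ(M, V)) :
    hF.inv.app V h (F.app V h m) = m := (hF V h).1 (hF.app_inv V h _)

lemma IsIso.isIso_inv {F : HomOn M N U} (hF : F.IsIso) : hF.inv.IsIso := fun V h ↦
  ⟨Function.LeftInverse.injective (hF.app_inv V h),
    Function.RightInverse.surjective (hF.inv_app V h)⟩

/-- Morphisms agreeing on frames around all points agree. -/
lemma eq_of_frames {F G : HomOn M N U}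
    (h : ∀ x ∈ U, ∃ (V : X.Opens) (hV : V ≤ U) (s : Γ(M, V)), x ∈ V ∧ IsFrame M s ∧
      F.app V hV s = G.app V hV s) : F = G := by
  ext V hV m
  refine mres_ext_point fun x hx ↦ ?_
  obtain ⟨V', hV', s, hx', hs, he⟩ := h x (hV hx)
  refine ⟨V ⊓ V', inf_le_left, ⟨hx, hx'⟩, ?_⟩
  rw [← F.map_res V hV, ← G.map_res V hV]
  exact hs.homOn_ext (F.res hV') (G.res hV') he inf_le_right _

/-- Bijectivity is local. -/
lemma isIso_of_cover (F : HomOn M N U) {ι : Type*} (W : ι → X.Opens) (hW : ∀ i, W i ≤ U)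
    (hc : U ≤ ⨆ i, W i) (h : ∀ i, (F.res (hW i)).IsIso) : F.IsIso := fun V hV ↦ by
  have hcov : V ≤ ⨆ i, V ⊓ W i := by rw [← inf_iSup_eq]; exact le_inf le_rfl (hV.trans hc)
  constructor
  · intro m m' e
    refine mres_ext (fun i ↦ V ⊓ W i) (fun i ↦ inf_le_left) hcov fun i ↦ ?_
    refine (h i _ inf_le_right).1 ?_
    simp only [res_app, F.map_res V hV _ inf_le_left, e]
  · intro n
    choose m hm using fun i ↦ (h i (V ⊓ W i) inf_le_right).2 (mres N inf_le_left n)
    simp only [res_app] at hm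
    obtain ⟨m', hm', -⟩ := mres_glue (M := M) (fun i ↦ V ⊓ W i) (fun _ ↦ inf_le_left) hcov m
      fun i j ↦ (h i _ (inf_le_left.trans inf_le_right)).1 (by
        simp only [res_app]
        rw [F.map_res _ (inf_le_left.trans hV) _ inf_le_left,
          F.map_res _ (inf_le_left.trans hV) _ inf_le_right, hm, hm, mres_mres, mres_mres])
    refine ⟨m', mres_ext (fun i ↦ V ⊓ W i) (fun i ↦ inf_le_left) hcov fun i ↦ ?_⟩
    rw [← F.map_res V hV _ inf_le_left, hm']
    exact hm i

/-- A morphism sending frames to frames is bijective. -/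
lemma isIso_of_mapsFrames (F : HomOn M N U)
    (h : ∀ x ∈ U, ∃ (V : X.Opens) (hV : V ≤ U) (s : Γ(M, V)), x ∈ V ∧ IsFrame M s ∧
      IsFrame N (F.app V hV s)) : F.IsIso := by
  choose V hV s hx hs ht using h
  refine F.isIso_of_cover (fun p : U ↦ V p.1 p.2) (fun p ↦ hV _ _)
    (fun x hxU ↦ Opens.mem_iSup.2 ⟨⟨x, hxU⟩, hx x hxU⟩) fun p Z hZ ↦ ?_
  have e : (fun r : Γ(X, Z) ↦ r • mres N hZ (F.app _ (hV _ p.2) (s _ p.2))) =
      F.app Z (hZ.trans (hV _ _)) ∘ fun r : Γ(X, Z) ↦ r • mres M hZ (s _ p.2) := by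
    funext r
    simp [Function.comp, F.map_smul, F.map_res _ (hV _ p.2) Z hZ]
  exact (Function.Bijective.of_comp_iff _ (hs _ p.2 Z hZ)).1 (e ▸ ht _ p.2 Z hZ)

/-- Gluing of morphisms over an open. -/
lemma existsUnique_glueOn {ι : Type*} (W : ι → X.Opens) (hW : ∀ i, W i ≤ U) (hc : U ≤ ⨆ i, W i)
    (F : ∀ i, HomOn M N (W i))
    (hF : ∀ i j V (hi : V ≤ W i) (hj : V ≤ W j) (m : Γ(M, V)),
      (F i).app V hi m = (F j).app V hj m) :
    ∃! G : HomOn M N U, ∀ i, G.res (hW i) = F i := by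
  have hex : ∀ V (_ : V ≤ U) (m : Γ(M, V)), ∃! n : Γ(N, V), ∀ i,
      mres N (inf_le_left : V ⊓ W i ≤ V) n =
        (F i).app _ inf_le_right (mres M inf_le_left m) := fun V hV m ↦ by
    refine mres_glue (M := N) (fun i ↦ V ⊓ W i) (fun i ↦ inf_le_left)
      (by rw [← inf_iSup_eq]; exact le_inf le_rfl (hV.trans hc)) _ fun i j ↦ ?_
    rw [← (F i).map_res _ inf_le_right _ inf_le_left, ← (F j).map_res _ inf_le_right _ inf_le_right,
      mres_mres, mres_mres]
    exact hF i j _ _ _ _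
  choose g hg hgu using hex
  let G : HomOn M N U :=
    { app := g
      map_add := fun V hV m m' ↦ (hgu V hV _ _ fun i ↦ by
        rw [mres_add, hg, hg, ← (F i).map_add, ← mres_add]).symm
      map_smul := fun V hV r m ↦ (hgu V hV _ _ fun i ↦ by
        rw [mres_smul, hg, ← (F i).map_smul, ← mres_smul]).symm
      map_res := fun V hV V' h m ↦ (hgu V' _ _ _ fun i ↦ by
        have e := congrArg (mres N (inf_le_inf h le_rfl : V' ⊓ W i ≤ V ⊓ W i)) (hg V hV m i)
        rw [mres_mres, ← (F i).map_res _ inf_le_right, mres_mres] at e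
        rw [mres_mres, mres_mres]
        exact e).symm }
  refine ⟨G, fun i ↦ ?_, fun G' hG' ↦ ?_⟩
  · ext V hV m
    refine (hgu V (hV.trans (hW i)) m _ fun j ↦ ?_).symm
    rw [← (F i).map_res V hV _ inf_le_left]
    exact hF i j _ _ _ _
  · ext V hV m
    refine hgu V hV m _ fun i ↦ ?_
    rw [← G'.map_res V hV _ inf_le_left, ← hG' i]
    rfl

/-- A morphism defined on everything is a morphism of sheaves. -/
lemma exists_hom (F : HomOn M N ⊤) : ∃ φ : M ⟶ N, ∀ V (m : Γ(M, V)), φ.app V m = F.app V le_top m := by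
  obtain ⟨φ, hφ, -⟩ := HomOn.existsUnique_glue (fun _ : Unit ↦ (⊤ : X.Opens)) (by simp)
    (fun _ ↦ F) fun _ _ _ _ _ _ ↦ rfl
  exact ⟨φ, fun V m ↦ hφ () V le_top m⟩

/-- A bijective morphism defined on everything is an isomorphism of sheaves. -/
lemma IsIso.exists_iso (hM : Scheme.Modules.IsInvertible M) {F : HomOn M N ⊤} (hF : F.IsIso) :
    ∃ e : M ≅ N, ∀ V (m : Γ(M, V)), e.hom.app V m = F.app V le_top m := by
  obtain ⟨φ, hφ⟩ := F.exists_hom
  choose V s hx hs using fun x ↦ exists_isFrame hM x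
  have : CategoryTheory.IsIso φ := isIso_of_frames V
    (eq_top_iff.2 fun x _ ↦ Opens.mem_iSup.2 ⟨x, hx x⟩) φ hs fun x ↦ by
      rw [hφ]; exact hF.map_frame _ (hs x)
  exact ⟨asIso φ, hφ⟩

lemma isIso_ofHom (φ : M ⟶ N) [CategoryTheory.IsIso φ] (U : X.Opens) :
    (HomOn.ofHom φ U).IsIso := fun V _ ↦ ConcreteCategory.bijective_of_isIso (φ.app V)

/-- Two morphisms, the first an isomorphism, differ by a function. -/
lemma exists_eq_smulFun (hM : InvOn M U) {α : HomOn M N U} (hα : α.IsIso) (β : HomOn M N U) :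
    ∃ f : Γ(X, U), β = α.smulFun f := by
  choose V s hV hx hs using hM
  have ht := fun p : U ↦ hα.map_frame (hV _ p.2) (hs _ p.2)
  let r : ∀ p : U, Γ(X, V _ p.2) := fun p ↦ (ht p).coeff le_rfl (β.app _ (hV _ p.2) (s _ p.2))
  have hr : ∀ p : U, β.app _ (hV _ p.2) (s _ p.2) = r p • α.app _ (hV _ p.2) (s _ p.2) := fun p ↦ by
    have e := (ht p).coeff_smul le_rfl (β.app _ (hV _ p.2) (s _ p.2))
    rw [mres_self] at e
    exact e.symm
  -- the relation holds for all sections
  have key : ∀ (p : U) Z (hZ : Z ≤ V _ p.2) (m : Γ(M, Z)),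
      β.app Z (hZ.trans (hV _ _)) m = ores X hZ (r p) • α.app Z (hZ.trans (hV _ _)) m :=
    fun p Z hZ m ↦ (hs _ p.2).homOn_ext (β.res (hV _ _)) ((α.res (hV _ _)).smulFun (r p))
      (by simp [hr]) hZ m
  obtain ⟨f, hf⟩ : ∃ f : Γ(X, U), ∀ p : U, ores X (hV _ p.2) f = r p := by
    refine (X.sheaf.existsUnique_gluing' (fun p : U ↦ V _ p.2) U (fun p ↦ homOfLE (hV _ _))
      (fun x hxU ↦ Opens.mem_iSup.2 ⟨⟨x, hxU⟩, hx x hxU⟩) r fun p q ↦ ?_).exists
    have h' := (ht p).mono (inf_le_left : V _ p.2 ⊓ V _ q.2 ≤ _)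
    refine (h' _ le_rfl).1 ?_
    change ores X inf_le_left (r p) • _ = ores X inf_le_right (r q) • _
    rw [mres_self, ← α.map_res _ (hV _ p.2) _ inf_le_left, ← key p _ inf_le_left,
      ← key q _ inf_le_right]
  refine ⟨f, eq_of_frames fun x hxU ↦ ⟨V x hxU, hV x hxU, s x hxU, hx x hxU, hs x hxU, ?_⟩⟩
  rw [smulFun_app, hf ⟨x, hxU⟩]
  exact hr ⟨x, hxU⟩

end HomOn

/-- Gluing of invertible modules along a cocycle of isomorphisms. -/
theorem exists_glue_modules {ι : Type*} (U : ι → X.Opens) (hU : ⨆ i, U i = ⊤) (P : ι → X.Modules)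
    (hP : ∀ i, InvOn (P i) (U i)) (α : ∀ i j, HomOn (P i) (P j) (U i ⊓ U j))
    (hrefl : ∀ i V hV m, (α i i).app V hV m = m)
    (hcoc : ∀ i j l V (hi : V ≤ U i) (hj : V ≤ U j) (hl : V ≤ U l) m,
      (α j l).app V (le_inf hj hl) ((α i j).app V (le_inf hi hj) m) =
        (α i l).app V (le_inf hi hl) m) :
    ∃ L : X.Modules, Scheme.Modules.IsInvertible L ∧ ∃ β : ∀ i, HomOn L (P i) (U i),
      (∀ i, (β i).IsIso) ∧ ∀ i j V (hi : V ≤ U i) (hj : V ≤ U j) m,
        (α i j).app V (le_inf hi hj) ((β i).app V hi m) = (β j).app V hj m := by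
  have hαiso : ∀ i j, (α i j).IsIso := fun i j V hV ↦ by
    refine ⟨Function.LeftInverse.injective (g := (α j i).app V (le_inf (hV.trans inf_le_right)
      (hV.trans inf_le_left))) fun m ↦ ?_, Function.RightInverse.surjective
      (g := (α j i).app V (le_inf (hV.trans inf_le_right) (hV.trans inf_le_left))) fun m ↦ ?_⟩
    · rw [hcoc i j i V (hV.trans inf_le_left) (hV.trans inf_le_right) (hV.trans inf_le_left), hrefl]
    · rw [hcoc j i j V (hV.trans inf_le_right) (hV.trans inf_le_left) (hV.trans inf_le_right), hrefl]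
  choose V s hV hx hs using hP
  have hidx : ∀ x : X, ∃ i, x ∈ U i := fun x ↦
    Opens.mem_iSup.1 (hU.symm ▸ Opens.mem_top x : x ∈ ⨆ i, U i)
  choose idx hidx using hidx
  let A : Type u := Σ' x : X, PLift (x ∈ U (idx x))
  let W : A → X.Opens := fun a ↦ V (idx a.1) a.1 a.2.down
  have hWU : ∀ a : A, W a ≤ U (idx a.1) := fun a ↦ hV _ _ _
  have hWc : ⨆ a, W a = ⊤ := eq_top_iff.2 fun x _ ↦
    Opens.mem_iSup.2 ⟨⟨x, ⟨hidx x⟩⟩, hx _ x (hidx x)⟩
  let sa : ∀ a : A, Γ(P (idx a.1), W a) := fun a ↦ s _ _ _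
  have hsa : ∀ a : A, IsFrame (P (idx a.1)) (sa a) := fun a ↦ hs _ _ _
  -- the image of the frame `b` in the module of `a`
  let img : ∀ (a b : A) Z (_ : Z ≤ W a) (_ : Z ≤ W b), Γ(P (idx a.1), Z) := fun a b Z ha hb ↦
    (α (idx b.1) (idx a.1)).app Z (le_inf (hb.trans (hWU b)) (ha.trans (hWU a))) (mres (P (idx b.1)) hb (sa b))
  have himg : ∀ a b Z ha hb, IsFrame (P (idx a.1)) (img a b Z ha hb) := fun a b Z ha hb ↦
    (hαiso (idx b.1) (idx a.1)).map_frame _ ((hsa b).mono hb)
  let g : ∀ a b, Γ(X, W a ⊓ W b)ˣ := fun a b ↦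
    (((hsa a).mono (inf_le_left : W a ⊓ W b ≤ W a)).isUnit_coeff
      (himg a b _ inf_le_left inf_le_right)).unit
  have hg : ∀ a b Z (ha : Z ≤ W a) (hb : Z ≤ W b), img a b Z ha hb =
      ores X (le_inf ha hb) (g a b : Γ(X, W a ⊓ W b)) • mres (P (idx a.1)) ha (sa a) := fun a b Z ha hb ↦ by
    have e := ((hsa a).mono (inf_le_left : W a ⊓ W b ≤ W a)).coeff_smul le_rfl
      (img a b _ inf_le_left inf_le_right)
    have e' := congrArg (mres (P (idx a.1)) (le_inf ha hb)) e.symm
    simp only [img, mres_smul, mres_mres, ← (α (idx b.1) (idx a.1)).map_res _ _ _ (le_inf ha hb)] at e' ⊢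
    exact e'
  let D : UnitCocycle X :=
    { ι := A
      U := W
      cover := hWc
      g := g
      cocycle := fun a b c ↦ by
        let Z := W a ⊓ W b ⊓ W c
        have ha : Z ≤ W a := inf_le_left.trans inf_le_left
        have hb : Z ≤ W b := inf_le_left.trans inf_le_right
        have hc : Z ≤ W c := inf_le_right
        refine ((hsa a) Z ha).1 ?_
        have e1 := hg a c Z ha hc
        have e2 := congrArg ((α (idx b.1) (idx a.1)).app Z (le_inf (hb.trans (hWU b)) (ha.trans (hWU a))))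
          (hg b c Z hb hc)
        simp only [img] at e1 e2
        rw [hcoc (idx c.1) (idx b.1) (idx a.1) Z (hc.trans (hWU c)) (hb.trans (hWU b)) (ha.trans (hWU a)),
          HomOn.map_smul, e1] at e2
        rw [show (α (idx b.1) (idx a.1)).app Z _ (mres (P (idx b.1)) hb (sa b)) = img a b Z ha hb from rfl,
          hg a b Z ha hb, ← mul_smul, mul_comm] at e2
        exact e2.symm }
  refine ⟨D.toModules, D.isInvertible, ?_⟩
  -- the comparison over each piece
  let Fa : ∀ (i : ι) (a : A), HomOn D.toModules (P i) (W a ⊓ U i) := fun i a ↦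
    ((D.isFrame_frame a).mono (inf_le_left : W a ⊓ U i ≤ D.U a)).homOn
      ((α (idx a.1) i).app _ (le_inf (inf_le_left.trans (hWU a)) inf_le_right) (mres _ inf_le_left (sa a)))
  have hFa : ∀ i a Z (ha : Z ≤ W a) (hi : Z ≤ U i),
      (Fa i a).app Z (le_inf ha hi) (mres D.toModules ha (D.frame a)) =
        (α (idx a.1) i).app Z (le_inf (ha.trans (hWU a)) hi) (mres _ ha (sa a)) := fun i a Z ha hi ↦ by
    have e := ((D.isFrame_frame a).mono (inf_le_left : W a ⊓ U i ≤ D.U a)).homOn_self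
      ((α (idx a.1) i).app _ (le_inf (inf_le_left.trans (hWU a)) inf_le_right) (mres _ inf_le_left (sa a)))
      (le_inf ha hi)
    rw [mres_mres, ← (α (idx a.1) i).map_res _ _ _ (le_inf ha hi), mres_mres] at e
    exact e
  have hagree : ∀ i a b Z (ha : Z ≤ W a ⊓ U i) (hb : Z ≤ W b ⊓ U i) m,
      (Fa i a).app Z ha m = (Fa i b).app Z hb m := fun i a b Z ha hb m ↦ by
    obtain ⟨ha', hi⟩ := le_inf_iff.1 ha
    obtain ⟨hb', -⟩ := le_inf_iff.1 hb
    refine ((D.isFrame_frame b).mono hb').homOn_ext ((Fa i a).res (le_inf ha' hi))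
      ((Fa i b).res (le_inf hb' hi)) ?_ le_rfl m
    simp only [HomOn.res_app]
    rw [hFa i b Z hb' hi]
    have e := congrArg (mres D.toModules (le_inf ha' hb' : Z ≤ W a ⊓ W b)) (D.frame_rel a b)
    rw [mres_smul, mres_mres, mres_mres] at e
    rw [e, HomOn.map_smul, hFa i a Z ha' hi, ← HomOn.map_smul, ← hg a b Z ha' hb']
    exact hcoc (idx b.1) (idx a.1) i Z (hb'.trans (hWU b)) (ha'.trans (hWU a)) hi _
  have hex : ∀ i, ∃! G : HomOn D.toModules (P i) (U i), ∀ a, G.res inf_le_right = Fa i a :=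
    fun i ↦ HomOn.existsUnique_glueOn (fun a ↦ W a ⊓ U i) (fun a ↦ inf_le_right)
      (by rw [← iSup_inf_eq, hWc, top_inf_eq]) (Fa i) (hagree i)
  choose β hβ _ using hex
  have hβapp : ∀ i a Z (ha : Z ≤ W a) (hi : Z ≤ U i),
      (β i).app Z hi (mres D.toModules ha (D.frame a)) =
        (α (idx a.1) i).app Z (le_inf (ha.trans (hWU a)) hi) (mres _ ha (sa a)) := fun i a Z ha hi ↦ by
    rw [← hFa i a Z ha hi, ← hβ i a]
    rfl
  refine ⟨β, fun i ↦ (β i).isIso_of_mapsFrames fun x hxi ↦ ?_, fun i j Z hi hj m ↦ ?_⟩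
  · let a : A := ⟨x, ⟨hidx x⟩⟩
    refine ⟨W a ⊓ U i, inf_le_right, mres D.toModules inf_le_left (D.frame a),
      ⟨hx _ x (hidx x), hxi⟩, (D.isFrame_frame a).mono (inf_le_left : W a ⊓ U i ≤ D.U a), ?_⟩
    rw [hβapp i a _ inf_le_left inf_le_right]
    exact (hαiso _ _).map_frame _ ((hsa a).mono _)
  · have key : (((β i).res (inf_le_left : U i ⊓ U j ≤ U i)).comp (α i j)) =
        (β j).res inf_le_right := by
      refine HomOn.eq_of_frames fun x hxU ↦ ?_
      obtain ⟨a, ha⟩ := Opens.mem_iSup.1 (hWc.symm ▸ Opens.mem_top x : x ∈ ⨆ a, W a)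
      refine ⟨W a ⊓ (U i ⊓ U j), inf_le_right, mres D.toModules inf_le_left (D.frame a),
        ⟨ha, hxU⟩, (D.isFrame_frame a).mono (inf_le_left : W a ⊓ (U i ⊓ U j) ≤ D.U a), ?_⟩
      simp only [HomOn.comp_app, HomOn.res_app]
      rw [hβapp i a _ inf_le_left (inf_le_right.trans inf_le_left),
        hβapp j a _ inf_le_left (inf_le_right.trans inf_le_right),
        hcoc (idx a.1) i j _ (inf_le_left.trans (hWU a)) (inf_le_right.trans inf_le_left)
          (inf_le_right.trans inf_le_right)]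
    exact congrFun (congrFun (congrFun (congrArg HomOn.app key) Z) (le_inf hi hj)) m

/-- An invertible module is given by a cocycle on a cover indexed by the points. -/
theorem exists_cocycle_iso (hM : Scheme.Modules.IsInvertible M) :
    ∃ (U : X → X.Opens) (hU : ⨆ i, U i = ⊤) (g : ∀ i j, Γ(X, U i ⊓ U j)ˣ)
      (hc : ∀ i j l, ores X (le_inf (inf_le_left.trans inf_le_left) (inf_le_left.trans inf_le_right))
          (g i j : Γ(X, U i ⊓ U j)) *
        ores X (le_inf (inf_le_left.trans inf_le_right) inf_le_right) (g j l : Γ(X, U j ⊓ U l)) =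
        ores X (le_inf (inf_le_left.trans inf_le_left) inf_le_right : U i ⊓ U j ⊓ U l ≤ U i ⊓ U l)
          (g i l : Γ(X, U i ⊓ U l))),
      Nonempty ((UnitCocycle.mk X U hU g hc).toModules ≅ M) := by
  choose U s hx hs using fun x ↦ exists_isFrame hM x
  have hU : ⨆ i, U i = ⊤ := eq_top_iff.2 fun x _ ↦ Opens.mem_iSup.2 ⟨x, hx x⟩
  let g : ∀ i j, Γ(X, U i ⊓ U j)ˣ := fun i j ↦
    (((hs i).mono (inf_le_left : U i ⊓ U j ≤ U i)).isUnit_coeff
      ((hs j).mono inf_le_right)).unit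
  have hg : ∀ i j Z (hi : Z ≤ U i) (hj : Z ≤ U j), mres M hj (s j) =
      ores X (le_inf hi hj) (g i j : Γ(X, U i ⊓ U j)) • mres M hi (s i) := fun i j Z hi hj ↦ by
    have e := ((hs i).mono (inf_le_left : U i ⊓ U j ≤ U i)).coeff_smul le_rfl
      (mres M inf_le_right (s j))
    have e' := congrArg (mres M (le_inf hi hj)) e.symm
    simp only [mres_smul, mres_mres] at e'
    exact e'
  have hc : ∀ i j l, ores X (le_inf (inf_le_left.trans inf_le_left) (inf_le_left.trans inf_le_right))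
        (g i j : Γ(X, U i ⊓ U j)) *
      ores X (le_inf (inf_le_left.trans inf_le_right) inf_le_right) (g j l : Γ(X, U j ⊓ U l)) =
      ores X (le_inf (inf_le_left.trans inf_le_left) inf_le_right : U i ⊓ U j ⊓ U l ≤ U i ⊓ U l)
        (g i l : Γ(X, U i ⊓ U l)) := fun i j l ↦ by
    have hi : U i ⊓ U j ⊓ U l ≤ U i := inf_le_left.trans inf_le_left
    have hj : U i ⊓ U j ⊓ U l ≤ U j := inf_le_left.trans inf_le_right
    refine (hs i _ hi).1 ?_
    change _ • _ = _ • _
    rw [mul_comm, mul_smul, ← hg i j _ hi hj, ← hg j l _ hj inf_le_right,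
      ← hg i l _ hi inf_le_right]
  refine ⟨U, hU, g, hc, ?_⟩
  let D := UnitCocycle.mk X U hU g hc
  obtain ⟨φ, hφ, -⟩ := HomOn.existsUnique_glue (M := D.toModules) (N := M) U hU
    (fun i ↦ (D.isFrame_frame i).homOn (s i)) fun i j Z hi hj m ↦ by
      refine ((D.isFrame_frame j).mono hj).homOn_ext (((D.isFrame_frame i).homOn (s i)).res hi)
        (((D.isFrame_frame j).homOn (s j)).res hj) ?_ le_rfl m
      simp only [HomOn.res_app]
      rw [IsFrame.homOn_self _ _ hj]
      have e := congrArg (mres D.toModules (le_inf hi hj : Z ≤ U i ⊓ U j)) (D.frame_rel i j)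
      rw [mres_smul, mres_mres, mres_mres] at e
      rw [e, HomOn.map_smul, IsFrame.homOn_self _ _ hi, ← hg i j Z hi hj]
  have : IsIso φ := isIso_of_frames U hU φ D.isFrame_frame fun i ↦ by
    have e := (hφ i _ le_rfl (mres D.toModules le_rfl (D.frame i))).trans
      ((D.isFrame_frame i).homOn_self (s i) le_rfl)
    rw [mres_self, mres_self] at e
    exact e ▸ hs i
  exact ⟨asIso φ⟩

end

end Fermat.Agent.Picard
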