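/-
Modules along open immersions.
-/
import Fermat.Agent.Picard.Modules.Glue

set_option autoImplicit false

universe u

open CategoryTheory CategoryTheory.Limits AlgebraicGeometry TopologicalSpace Opposite

namespace Fermat.Agent.Picard

noncomputable section

variable {X Y Z : Scheme.{u}}

/-- Pullback of sections along an open immersion is bijective inside the image. -/
lemma bijective_pullSec (g : Y ⟶ X) [IsOpenImmersion g] {M : X.Modules}
    (hM : Scheme.Modules.IsInvertible M) {V : X.Opens} (hV : V ≤ g.opensRange) :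
    Function.Bijective (pullSec g M : Γ(M, V) → _) := by
  choose U s hx hs using fun x ↦ exists_isFrame hM x
  have hloc : ∀ (x : X) (W : X.Opens), W ≤ U x → W ≤ g.opensRange →
      Function.Bijective (pullSec g M : Γ(M, W) → _) := fun x W hW hWr ↦ by
    have : IsIso (g.app W) := g.isIso_app W hWr
    have hfr := ((hs x).pullSec g hM) (g ⁻¹ᵁ W) (g.preimage_mono hW)
    have e : (pullSec g M : Γ(M, W) → _) ∘ (fun r : Γ(X, W) ↦ r • mres M hW (s x)) =
        (fun r : Γ(Y, g ⁻¹ᵁ W) ↦ r • mres _ (g.preimage_mono hW) (pullSec g M (s x))) ∘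
          (g.app W) := by
      funext r
      simp [Function.comp, pullSec_smul, pullSec_mres]
    exact (Function.Bijective.of_comp_iff _ (hs x W hW)).1
      (e ▸ hfr.comp (ConcreteCategory.bijective_of_isIso (g.app W)))
  have hcov : V ≤ ⨆ x, V ⊓ U x := fun x hxV ↦ Opens.mem_iSup.2 ⟨x, hxV, hx x⟩
  have hcov' : g ⁻¹ᵁ V ≤ ⨆ x, g ⁻¹ᵁ (V ⊓ U x) := fun y hy ↦
    Opens.mem_iSup.2 ⟨g y, hy, hx _⟩
  constructor
  · intro m m' e
    refine mres_ext (fun x ↦ V ⊓ U x) (fun x ↦ inf_le_left) hcov fun x ↦ ?_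
    refine (hloc x _ inf_le_right (inf_le_left.trans hV)).1 ?_
    rw [pullSec_mres, pullSec_mres, e]
  · intro n
    choose m hm using fun x ↦ (hloc x (V ⊓ U x) inf_le_right (inf_le_left.trans hV)).2
      (mres _ (g.preimage_mono inf_le_left) n)
    obtain ⟨m', hm', -⟩ := mres_glue (M := M) (fun x ↦ V ⊓ U x) (fun _ ↦ inf_le_left) hcov m
      fun x y ↦ (hloc x _ (inf_le_left.trans inf_le_right)
          ((inf_le_left.trans inf_le_left).trans hV)).1 (by
        rw [pullSec_mres, pullSec_mres, hm, hm, mres_mres, mres_mres])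
    refine ⟨m', mres_ext (fun x ↦ g ⁻¹ᵁ (V ⊓ U x)) (fun x ↦ g.preimage_mono inf_le_left) hcov'
      fun x ↦ ?_⟩
    rw [← pullSec_mres g M inf_le_left, hm']
    exact hm x

/-- The pushforward from an open is invertible there. -/
lemma invOn_pushforward (g : Y ⟶ X) [IsOpenImmersion g] {N : Y.Modules}
    (hN : Scheme.Modules.IsInvertible N) :
    InvOn ((Scheme.Modules.pushforward g).obj N) g.opensRange := fun x hx ↦ by
  obtain ⟨y, rfl⟩ := hx
  obtain ⟨W, s, hy, hs⟩ := exists_isFrame hN y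
  have he : g ⁻¹ᵁ (g ''ᵁ W) = W := g.preimage_image_eq W
  have hr : g ''ᵁ W ≤ g.opensRange := by
    rintro _ ⟨w, -, rfl⟩
    exact ⟨w, rfl⟩
  exact ⟨g ''ᵁ W, mres N he.le s, hr, ⟨y, hy, rfl⟩, fun V h ↦ by
    have : IsIso (g.app V) := g.isIso_app V (h.trans hr)
    exact ((hs.mono he.le) (g ⁻¹ᵁ V) (g.preimage_mono h)).comp
      (ConcreteCategory.bijective_of_isIso (g.app V))⟩

lemma bijective_smul_congr (N : Y.Modules) {U W W' : Y.Opens} (hle : W' ≤ U) (h : W ≤ U)
    (e : W' = W) (t : Γ(N, U))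
    (hb : Function.Bijective fun r : Γ(Y, W') ↦ r • mres N hle t) :
    Function.Bijective fun r : Γ(Y, W) ↦ r • mres N h t := by
  subst e
  exact hb

/-- A frame of a pushforward inside the image is a frame. -/
lemma isFrame_of_pushforward (g : Y ⟶ X) [IsOpenImmersion g] (N : Y.Modules) {V : X.Opens}
    (hV : V ≤ g.opensRange) (t : Γ((Scheme.Modules.pushforward g).obj N, V))
    (ht : IsFrame ((Scheme.Modules.pushforward g).obj N) t) :
    IsFrame N (show Γ(N, g ⁻¹ᵁ V) from t) := fun W h ↦ by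
  have hW : g ''ᵁ W ≤ V := by
    rintro _ ⟨w, hw, rfl⟩
    exact h hw
  have : IsIso (g.app (g ''ᵁ W)) := g.isIso_app _ (hW.trans hV)
  have e : g ⁻¹ᵁ (g ''ᵁ W) = W := g.preimage_image_eq W
  have hb : Function.Bijective fun r : Γ(Y, g ⁻¹ᵁ (g ''ᵁ W)) ↦
      r • mres N (g.preimage_mono hW) (show Γ(N, g ⁻¹ᵁ V) from t) :=
    (Function.Bijective.of_comp_iff _ (ConcreteCategory.bijective_of_isIso (g.app (g ''ᵁ W)))).1
      (ht _ hW)
  exact bijective_smul_congr N (g.preimage_mono hW) h e _ hb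

/-- The pullback along the second of two composable maps, seen on the target of the first. -/
def unitOn (g : Y ⟶ X) (h : Z ⟶ Y) (q : Z ⟶ X) (hq : h ≫ g = q) (M : Y.Modules) :
    HomOn ((Scheme.Modules.pushforward g).obj M)
      ((Scheme.Modules.pushforward q).obj ((Scheme.Modules.pullback h).obj M)) ⊤ where
  app V _ m := mres ((Scheme.Modules.pullback h).obj M) (show q ⁻¹ᵁ V ≤ h ⁻¹ᵁ (g ⁻¹ᵁ V) by subst hq; rfl)
    (pullSec h M (show Γ(M, g ⁻¹ᵁ V) from m))
  map_add V _ m m' := by
    change mres _ _ (pullSec h M ((show Γ(M, g ⁻¹ᵁ V) from m) + (show Γ(M, g ⁻¹ᵁ V) from m'))) = _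
    rw [pullSec_add, mres_add]
    rfl
  map_smul V _ r m := by
    subst hq
    change mres _ _ (pullSec h M ((g.app V).hom r • (show Γ(M, g ⁻¹ᵁ V) from m))) = _
    rw [pullSec_smul, mres_smul]
    refine congrArg (fun a : Γ(Z, (h ≫ g) ⁻¹ᵁ V) ↦ a • (mres ((Scheme.Modules.pullback h).obj M) le_rfl
      (pullSec h M (show Γ(M, g ⁻¹ᵁ V) from m)) : Γ((Scheme.Modules.pullback h).obj M, (h ≫ g) ⁻¹ᵁ V))) ?_
    exact ores_self _ _
  map_res V _ W h' m := by
    subst hq
    change mres _ _ (pullSec h M (mres M (g.preimage_mono h') (show Γ(M, g ⁻¹ᵁ V) from m))) =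
      mres _ ((h ≫ g).preimage_mono h') (mres _ _ (pullSec h M (show Γ(M, g ⁻¹ᵁ V) from m)))
    rw [pullSec_mres, mres_mres, mres_mres]

lemma isIso_unitOn (g : Y ⟶ X) (h : Z ⟶ Y) [IsOpenImmersion g] [IsOpenImmersion h] (q : Z ⟶ X)
    [IsOpenImmersion q] (hq : h ≫ g = q) {M : Y.Modules} (hM : Scheme.Modules.IsInvertible M) {U : X.Opens}
    (hU : U ≤ q.opensRange) : ((unitOn g h q hq M).res (le_top : U ≤ ⊤)).IsIso := fun V hV ↦ by
  subst hq
  have hle : g ⁻¹ᵁ V ≤ h.opensRange := fun y hy ↦ by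
    obtain ⟨z, hz⟩ := hU (hV hy)
    exact ⟨z, g.isOpenEmbedding.injective ((Scheme.Hom.comp_apply h g z).symm.trans hz)⟩
  have hb : Function.Bijective (mres ((Scheme.Modules.pullback h).obj M)
      (le_rfl : (h ≫ g) ⁻¹ᵁ V ≤ h ⁻¹ᵁ (g ⁻¹ᵁ V))) := by
    rw [show mres ((Scheme.Modules.pullback h).obj M)
      (le_rfl : (h ≫ g) ⁻¹ᵁ V ≤ h ⁻¹ᵁ (g ⁻¹ᵁ V)) = _root_.id from funext fun m ↦ mres_self _ m]
    exact Function.bijective_id
  exact hb.comp (bijective_pullSec h hM hle)

/-- The pullback along a map, seen on the target. -/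
def unitTop (q : Z ⟶ X) (M : X.Modules) :
    HomOn M ((Scheme.Modules.pushforward q).obj ((Scheme.Modules.pullback q).obj M)) ⊤ :=
  HomOn.ofHom ((Scheme.Modules.pullbackPushforwardAdjunction q).unit.app M) ⊤

lemma isIso_unitTop (q : Z ⟶ X) [IsOpenImmersion q] {M : X.Modules}
    (hM : Scheme.Modules.IsInvertible M) {U : X.Opens} (hU : U ≤ q.opensRange) :
    ((unitTop q M).res (le_top : U ≤ ⊤)).IsIso := fun _ hV ↦ bijective_pullSec q hM (hV.trans hU)

lemma HomOn.isIso_pushforward (q : Z ⟶ X) {A B : Z.Modules} (φ : A ⟶ B) [CategoryTheory.IsIso φ]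
    (U : X.Opens) :
    (HomOn.ofHom ((Scheme.Modules.pushforward q).map φ) U).IsIso :=
  HomOn.isIso_ofHom _ _

/-- An isomorphism of pullbacks to an open is an isomorphism on that open. -/
lemma exists_homOn_of_pullback_iso (q : Z ⟶ X) [IsOpenImmersion q] {M N : X.Modules}
    (hM : Scheme.Modules.IsInvertible M) (hN : Scheme.Modules.IsInvertible N)
    (φ : (Scheme.Modules.pullback q).obj M ≅ (Scheme.Modules.pullback q).obj N) :
    ∃ F : HomOn M N q.opensRange, F.IsIso :=
  ⟨((((unitTop q M).res le_top).comp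
      (HomOn.ofHom ((Scheme.Modules.pushforward q).map φ.hom) _)).comp
      (isIso_unitTop q hN le_rfl).inv),
    ((isIso_unitTop q hM le_rfl).comp (HomOn.isIso_pushforward q φ.hom _)).comp
      (HomOn.IsIso.isIso_inv _)⟩

/-- An isomorphism of pullbacks of modules living on two opens. -/
lemma exists_homOn_of_pullback_iso' {Y' : Scheme.{u}} (g : Y ⟶ X) (g' : Y' ⟶ X) (h : Z ⟶ Y)
    (h' : Z ⟶ Y') [IsOpenImmersion g] [IsOpenImmersion g'] [IsOpenImmersion h] [IsOpenImmersion h']
    (q : Z ⟶ X) [IsOpenImmersion q] (hq : h ≫ g = q) (hq' : h' ≫ g' = q)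
    {M : Y.Modules} {M' : Y'.Modules} (hM : Scheme.Modules.IsInvertible M)
    (hM' : Scheme.Modules.IsInvertible M')
    (φ : (Scheme.Modules.pullback h).obj M ≅ (Scheme.Modules.pullback h').obj M') :
    ∃ F : HomOn ((Scheme.Modules.pushforward g).obj M) ((Scheme.Modules.pushforward g').obj M')
      q.opensRange, F.IsIso :=
  ⟨((((unitOn g h q hq M).res le_top).comp
      (HomOn.ofHom ((Scheme.Modules.pushforward q).map φ.hom) _)).comp
      (isIso_unitOn g' h' q hq' hM' le_rfl).inv),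
    ((isIso_unitOn g h q hq hM le_rfl).comp (HomOn.isIso_pushforward q φ.hom _)).comp
      (HomOn.IsIso.isIso_inv _)⟩

/-- An isomorphism on an open gives an isomorphism of the pullback. -/
lemma nonempty_pullback_iso (g : Y ⟶ X) [IsOpenImmersion g] {L : X.Modules} {N : Y.Modules}
    (hL : Scheme.Modules.IsInvertible L)
    {β : HomOn L ((Scheme.Modules.pushforward g).obj N) g.opensRange} (hβ : β.IsIso) :
    Nonempty ((Scheme.Modules.pullback g).obj L ≅ N) := by
  have hle : ∀ V : X.Opens, g ⁻¹ᵁ V ≤ g ⁻¹ᵁ (V ⊓ g.opensRange) := fun V y hy ↦ ⟨hy, y, rfl⟩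
  let f : ∀ V : X.Opens, Γ(L, V) → Γ((Scheme.Modules.pushforward g).obj N, V) := fun V m ↦
    mres N (hle V) (show Γ(N, g ⁻¹ᵁ (V ⊓ g.opensRange)) from
      β.app (V ⊓ g.opensRange) inf_le_right (mres L inf_le_left m))
  let F : HomOn L ((Scheme.Modules.pushforward g).obj N) ⊤ :=
    { app := fun V _ ↦ f V
      map_add := fun V _ m m' ↦ by
        change mres N _ _ = mres N _ _ + mres N _ _
        rw [mres_add, β.map_add]
        exact mres_add (M := N) _ _ _
      map_smul := fun V _ r m ↦ by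
        change mres N (hle V) (show Γ(N, g ⁻¹ᵁ (V ⊓ g.opensRange)) from
            β.app (V ⊓ g.opensRange) inf_le_right (mres L inf_le_left (r • m))) =
          (g.app V).hom r • mres N (hle V) (show Γ(N, g ⁻¹ᵁ (V ⊓ g.opensRange)) from
            β.app (V ⊓ g.opensRange) inf_le_right (mres L inf_le_left m))
        rw [mres_smul, β.map_smul]
        refine (mres_smul (M := N) (hle V) ((g.app (V ⊓ g.opensRange)).hom
          (ores X inf_le_left r)) (β.app _ inf_le_right (mres L inf_le_left m))).trans ?_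
        congr 1
        have e := CategoryTheory.congr_fun
          (g.naturality (homOfLE (inf_le_left : V ⊓ g.opensRange ≤ V)).op) r
        refine (congrArg (ores Y (hle V)) e).trans ?_
        exact (ores_ores _ _ _).trans (ores_self _ _)
      map_res := fun V _ W h m ↦ by
        change mres N _ _ = mres N (g.preimage_mono h) (mres N _ _)
        rw [mres_mres (M := N)]
        have e := β.map_res (V ⊓ g.opensRange) inf_le_right (W ⊓ g.opensRange)
          (inf_le_inf h le_rfl) (mres L inf_le_left m)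
        rw [mres_mres] at e
        rw [mres_mres]
        refine (congrArg (mres N (hle W)) e).trans ?_
        exact mres_mres (M := N) (g.preimage_mono (inf_le_inf h le_rfl)) (hle W) _ }
  obtain ⟨φ, hφ⟩ := F.exists_hom
  let ψ := ((Scheme.Modules.pullbackPushforwardAdjunction g).homEquiv L N).symm φ
  choose U s hx hs using fun y : Y ↦ exists_isFrame hL (g y)
  let V : Y → X.Opens := fun y ↦ U y ⊓ g.opensRange
  have hsV : ∀ y, IsFrame L (mres L (inf_le_left : V y ≤ U y) (s y)) := fun y ↦ (hs y).mono _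
  have : IsIso ψ := isIso_of_frames (fun y ↦ g ⁻¹ᵁ V y)
    (eq_top_iff.2 fun y _ ↦ Opens.mem_iSup.2 ⟨y, hx y, y, rfl⟩) ψ
    (fun y ↦ (hsV y).pullSec g hL) fun y ↦ by
      have e := app_homEquiv g L ψ (mres L (inf_le_left : V y ≤ U y) (s y))
      rw [Equiv.apply_symm_apply, hφ] at e
      rw [← e]
      refine isFrame_of_pushforward g N inf_le_right _ ?_
      have e2 : f (V y) (mres L inf_le_left (s y)) =
          β.app (V y) inf_le_right (mres L inf_le_left (s y)) := by
        have e3 := β.map_res (V y) inf_le_right (V y ⊓ g.opensRange) inf_le_left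
          (mres L inf_le_left (s y))
        change mres N (hle (V y)) _ = _
        rw [e3]
        exact (mres_mres (M := N) _ _ _).trans (mres_self (M := N) _ _)
      change IsFrame _ (f (V y) _)
      rw [e2]
      exact hβ.map_frame _ (hsV y)
  exact ⟨asIso ψ⟩

end

end Fermat.Agent.Picard
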